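import Fermat.Agent.GolodCriterion.LocalClasses

/-!
# Homomorphisms of an open subgroup unramified at every place

The everywhere unramified homomorphisms into `p`-groups of the Galois group of a number field, and
the description of the global classes of the permutation module by characters.
-/

set_option autoImplicit false
set_option linter.unusedSectionVars false

noncomputable section

namespace Fermat.Agent.GolodCriterion

open FA.GalCoh ScholzReichardt

variable {p : ℕ} [hp : Fact p.Prime]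

/-- A homomorphism of the open subgroup `H` of the Galois group of `ℚ` with open kernel, values of
`p`-power order, unramified at every finite place of the field of `H`. -/
structure UnrClass (p : ℕ) (H : Subgroup GQ) {G : Type} [Group G] (f : H →* G) : Prop where
  lc : LC₁ (LQ.sub H) f
  pPow : ∀ s, ∃ k, f s ^ p ^ k = 1
  unr : ∀ (q : Nat.Primes) (g : GQ) (τ : hloc H (q : ℕ) g),
    (τ : LG (q : ℕ)) ∈ inertL (q : ℕ) → f (locTo H (q : ℕ) g τ) = 1

variable {H : Subgroup GQ} {G G' : Type} [Group G] [Group G']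

theorem UnrClass.prod {f : H →* G} {f' : H →* G'} (h : UnrClass p H f) (h' : UnrClass p H f') :
    UnrClass p H (f.prod f') where
  lc := h.lc.map₂ h'.lc Prod.mk
  pPow s := by
    obtain ⟨a, ha⟩ := h.pPow s
    obtain ⟨b, hb⟩ := h'.pPow s
    refine ⟨a + b, Prod.ext ?_ ?_⟩
    · show f s ^ p ^ (a + b) = 1
      rw [pow_add, pow_mul, ha, one_pow]
    · show f' s ^ p ^ (a + b) = 1
      rw [pow_add, mul_comm, pow_mul, hb, one_pow]
  unr q g τ hτ := Prod.ext (h.unr q g τ hτ) (h'.unr q g τ hτ)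

theorem UnrClass.rangeRestrict {f : H →* G} (h : UnrClass p H f) :
    UnrClass p H f.rangeRestrict where
  lc := by
    obtain ⟨M, hM, hs⟩ := h.lc
    exact ⟨M, hM, fun g s hg => Subtype.ext (hs g s hg)⟩
  pPow s := by
    obtain ⟨k, hk⟩ := h.pPow s
    exact ⟨k, Subtype.ext hk⟩
  unr q g τ hτ := Subtype.ext (h.unr q g τ hτ)

theorem UnrClass.isPGroup {f : H →* G} (h : UnrClass p H f) (hf : Function.Surjective f) :
    IsPGroup p G := fun g => by
  obtain ⟨s, rfl⟩ := hf g
  exact h.pPow s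

/-- It is enough to check one place in each orbit. -/
theorem unr_of_rep {q : ℕ} [Fact q.Prime] {f : H →* G}
    (h : ∀ (v : PlaceOver H q) (τ : hloc H q (repQ v)), (τ : LG q) ∈ inertL q →
      f (locTo H q (repQ v) τ) = 1) (g : GQ) (τ : hloc H q g) (hτ : (τ : LG q) ∈ inertL q) :
    f (locTo H q g τ) = 1 := by
  obtain ⟨σ, s, hs, e⟩ := placeQ_eq_iff.1 (placeQ_repQ (placeQ (H := H) (q := q) g)).symm
  set r := repQ (placeQ (H := H) (q := q) g)
  have hτ' : σ⁻¹ * (τ : LG q) * σ ∈ hloc H q r := (mem_hloc H).2 (by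
    have h1 := mul_mem (mul_mem hs ((mem_hloc H).1 τ.2)) (inv_mem hs)
    have h2 : ∀ t : LG q, s * (g⁻¹ * loc q t * g) * s⁻¹ = r⁻¹ * loc q (σ⁻¹ * t * σ) * r :=
      fun t => by rw [e, map_mul, map_mul, map_inv]; group
    rwa [h2] at h1)
  have h1 : f (locTo H q r ⟨_, hτ'⟩) = 1 :=
    h _ ⟨_, hτ'⟩ (by simpa using conj_mem_inertL hτ σ⁻¹)
  have e2 : locTo H q g τ = ⟨s, hs⟩⁻¹ * locTo H q r ⟨_, hτ'⟩ * ⟨s, hs⟩ := Subtype.ext (by
    show g⁻¹ * loc q (τ : LG q) * g = s⁻¹ * (r⁻¹ * loc q (σ⁻¹ * (τ : LG q) * σ) * r) * s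
    have h2 : ∀ t : LG q,
        g⁻¹ * loc q t * g = s⁻¹ * (r⁻¹ * loc q (σ⁻¹ * t * σ) * r) * s :=
      fun t => by rw [e, map_mul, map_mul, map_inv]; group
    exact h2 _)
  rw [e2, map_mul, map_mul, h1, mul_one, map_inv, inv_mul_cancel]

/-- The conjugates of inertia lie in a given level outside a finite set. -/
theorem exists_finset_inertia_conj_mem {N : Subgroup GQ} (hN : N ∈ LQ.carrier) :
    ∃ S : Finset Nat.Primes, ∀ q : Nat.Primes, q ∉ S → ∀ ι ∈ inertL (q : ℕ), ∀ g : GQ,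
      g⁻¹ * loc (q : ℕ) ι * g ∈ N := by
  obtain ⟨M, hM, hle, hn⟩ := LQ.exists_normal hN
  obtain ⟨S, hS⟩ := exists_inertL_subset hM
  exact ⟨S, fun q hq ι hι g => hle (hn.conj_mem' _ (hS q hq ι hι) g)⟩

/-- A homomorphism with open kernel is unramified outside a finite set. -/
theorem exists_finset_unr (hH : H ∈ LQ.carrier) {X : Type*} [Group X] (f : H →* X)
    (hf : LC₁ (LQ.sub H) f) :
    ∃ S : Finset Nat.Primes, ∀ q : Nat.Primes, q ∉ S → ∀ (g : GQ) (τ : hloc H (q : ℕ) g),
      (τ : LG (q : ℕ)) ∈ inertL (q : ℕ) → f (locTo H (q : ℕ) g τ) = 1 := by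
  obtain ⟨_, ⟨N, hN, rfl⟩, hs⟩ := hf
  obtain ⟨S, hS⟩ := exists_finset_inertia_conj_mem (LQ.inf_mem hN hH)
  refine ⟨S, fun q hq g τ hτ => ?_⟩
  have h := hs 1 (locTo H (q : ℕ) g τ)
    (Subgroup.mem_subgroupOf.2 (hS q hq _ hτ g).1)
  rwa [one_mul, map_one] at h

variable {X : Type} [Fintype X] [MulAction GQ X] (T : Trans LQ X)

/-- The permutation module is unramified outside a finite set. -/
theorem exists_finset_unrRep :
    ∃ S : Finset Nat.Primes, ∀ q : Nat.Primes, q ∉ S →
      UnrRep ((T.perm p).comp (loc (q : ℕ))) := by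
  obtain ⟨N, hN, hN1⟩ := T.smooth_perm (p := p)
  obtain ⟨S, hS⟩ := exists_finset_inertia_conj_mem hN
  exact ⟨S, fun q hq ι hι => hN1 _ (by simpa using hS q hq ι hι 1)⟩

/-- Classes of the trivial module as characters. -/
def trivEquiv {D : Type} [Group D] (L : Levels D) :
    ↥(Z1 L (triv D p)) ≃ₗ[ZMod p] H1 L (triv D p) :=
  LinearEquiv.ofBijective (mk1 L (triv D p)) ⟨mk1_triv_injective, mk1_surjective⟩

variable (p) in
/-- The character of a global class. -/
def homOf : H1 LQ (T.perm p) →ₗ[ZMod p] ↥(Z1 (LQ.sub T.H) (triv T.H p)) :=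
  (trivEquiv (LQ.sub T.H)).symm.toLinearMap ∘ₗ T.sh1 (triv T.H p)

theorem mk1_homOf (x : H1 LQ (T.perm p)) :
    mk1 (LQ.sub T.H) (triv T.H p) (homOf p T x) = T.sh1 (triv T.H p) x :=
  (trivEquiv (LQ.sub T.H)).apply_symm_apply _

theorem homOf_injective : Function.Injective (homOf p T) :=
  (trivEquiv (LQ.sub T.H)).symm.injective.comp T.sh1_injective

theorem homOf_surjective : Function.Surjective (homOf p T) :=
  (trivEquiv (LQ.sub T.H)).symm.surjective.comp T.sh1_surjective

/-- A character as a homomorphism. -/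
def toHom {D : Type} [Group D] {L : Levels D} (c : ↥(Z1 L (triv D p))) :
    D →* Multiplicative (ZMod p) :=
  MonoidHom.mk' (fun s => Multiplicative.ofAdd (c.1 s))
    fun a b => by rw [Z1_triv_mul c a b, ofAdd_add]

theorem locSh_resq1 {q : ℕ} [Fact q.Prime] (g : GQ) (x : H1 LQ (T.perm p)) :
    T.locSh q g (resq1 q (T.perm p) x)
      = mk1 ((LL q).sub (hloc T.H q g)) (triv (hloc T.H q g) p)
          (mapZ1 (compat_locTo g) (Equi.res (locTo T.H q g) (triv T.H p)) (homOf p T x)) := by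
  rw [← T.locH1_eq_locSh g x, ← mk1_homOf]
  rfl

theorem resq1_mem_unrCond_iff {q : ℕ} [Fact q.Prime] (x : H1 LQ (T.perm p)) :
    resq1 q (T.perm p) x ∈ unrCond p T q ↔
      ∀ (g : GQ) (τ : hloc T.H q g), (τ : LG q) ∈ inertL q →
        (homOf p T x).1 (locTo T.H q g τ) = 0 := by
  refine (mem_unrCond T).trans (forall_congr' fun g => ?_)
  rw [locSh_resq1, mk1_mem_unrSub]
  rfl

theorem unrH1_le_unrCond (q : ℕ) [Fact q.Prime] :
    unrH1 ((T.perm p).comp (loc q)) ≤ unrCond p T q := by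
  rintro _ ⟨f, hf, rfl⟩
  refine (mk1_mem_unrCond T).2 fun g τ hτ => ?_
  rw [hf _ hτ]
  rfl

/-- A class with components unramified everywhere gives an everywhere unramified character. -/
theorem unrClass_homOf {x : H1 LQ (T.perm p)}
    (h : ∀ q : Nat.Primes, resq1 (q : ℕ) (T.perm p) x ∈ unrCond p T (q : ℕ)) :
    UnrClass p T.H (toHom (homOf p T x)) where
  lc := (homOf p T x).2.1.comp Multiplicative.ofAdd
  pPow s := ⟨1, Multiplicative.toAdd.injective (by
    rw [toAdd_pow, pow_one, toAdd_one, nsmul_eq_mul, ZMod.natCast_self, zero_mul])⟩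
  unr q g τ hτ := by
    show Multiplicative.ofAdd ((homOf p T x).1 _) = 1
    rw [(resq1_mem_unrCond_iff T x).1 (h q) g τ hτ, ofAdd_zero]

end Fermat.Agent.GolodCriterion
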