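import Fermat.Agent.GolodShafarevich.Lifts
import Fermat.Agent.GalCoh.PermLocal
import Fermat.Agent.GalCoh.Devissage

/-!
# Unramified conditions on the local classes of a permutation module

Homomorphisms on a decomposition group which are trivial on inertia lift along any map of finite
groups, a class at one place extends by zero to the others, and the unramified classes are at least
as many as the invariants.
-/

set_option autoImplicit false
set_option linter.unusedSectionVars false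

noncomputable section

namespace Fermat.Agent.GolodCriterion

open FA.GalCoh ScholzReichardt

variable {p : ℕ} [hp : Fact p.Prime] {q : ℕ} [hq : Fact q.Prime]

/-- Inertia is normal in the decomposition group. -/
theorem conj_mem_inertL {ι : LG q} (hι : ι ∈ inertL q) (φ : LG q) :
    φ * ι * φ⁻¹ ∈ inertL q := by
  show loc q (φ * ι * φ⁻¹) ∈ (padicPlace q).inertiaSubgroupIn ℚ
  rw [map_mul, map_mul, map_inv]
  exact FA.TW.conj_mem_inertia_of_mem (by rw [← range_loc]; exact ⟨φ, rfl⟩) hι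

/-- A homomorphism with open kernel trivial on inertia factors through the exponents of
Frobenius, with a value of order a multiple of a given number. -/
theorem exists_unr_quotient {D : Subgroup (LG q)} (hD : D ∈ (LL q).carrier) {G : Type*} [Group G]
    (f : D →* G) (hlc : LC₁ ((LL q).sub D) f)
    (hunr : ∀ τ : D, (τ : LG q) ∈ inertL q → f τ = 1) {n : ℕ} (hn : 0 < n) :
    ∃ (N : ℕ) (_ : NeZero N) (u : D →* Multiplicative (ZMod N)), LC₁ ((LL q).sub D) u ∧
      (∀ τ : D, (τ : LG q) ∈ inertL q → u τ = 1) ∧ u.ker ≤ f.ker ∧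
      ∃ w : D, n ∣ orderOf (u w) := by
  classical
  obtain ⟨_, ⟨M₀, hM₀, rfl⟩, hfM⟩ := hlc
  obtain ⟨M, hM, hle, hMn⟩ := (LL q).exists_normal ((LL q).inf_mem hD hM₀)
  have := (LL q).finiteIndex hM
  have hfM' : ∀ x : D, (x : LG q) ∈ M → f x = 1 := fun x hx => by
    have h := hfM 1 x (Subgroup.mem_subgroupOf.2 (hle hx).2)
    rwa [one_mul, map_one] at h
  have hm0 : M.index ≠ 0 := Subgroup.FiniteIndex.index_ne_zero
  have hN0 : NeZero (n * M.index) := ⟨mul_ne_zero hn.ne' hm0⟩
  let u : D →* Multiplicative (ZMod (n * M.index)) :=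
    MonoidHom.mk' (fun τ => Multiplicative.ofAdd (frobExp (n * M.index) (τ : LG q)))
      fun a b => by rw [Subgroup.coe_mul, frobExp_mul, ofAdd_add]
  obtain ⟨M₁, hM₁, hM₁s⟩ := frobExp_lc (q := q) (n * M.index)
  refine ⟨_, hN0, u, ⟨M₁.subgroupOf D, ⟨M₁, hM₁, rfl⟩, fun g s hs =>
    congrArg Multiplicative.ofAdd (hM₁s _ _ hs)⟩, fun τ hτ =>
    congrArg Multiplicative.ofAdd (frobExp_inertL hτ), fun τ hτ => ?_,
    ⟨frobL q ^ M.index, (hle (M.pow_index_mem _)).1⟩, ?_⟩
  · obtain ⟨i, ι, hι, s, hs, e⟩ := exists_frobL_decomp ((LL q).inf_mem hM hM₁) (τ : LG q)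
    have h0 : frobExp (n * M.index) (τ : LG q) = 0 := Multiplicative.ofAdd.injective hτ
    rw [e, hM₁s _ s hs.2, frobExp_mul, frobExp_inertL hι, add_zero, frobExp_frobL_pow,
      ZMod.natCast_eq_zero_iff] at h0
    obtain ⟨k, hk⟩ := (dvd_mul_left M.index n).trans h0
    have hiM : frobL q ^ i ∈ M := by
      rw [hk, pow_mul]
      exact pow_mem (M.pow_index_mem _) k
    have hιD : ι ∈ D := by
      rw [show ι = (frobL q ^ i)⁻¹ * (τ : LG q) * s⁻¹ by rw [e]; group]
      exact mul_mem (mul_mem (inv_mem (hle hiM).1) τ.2) (inv_mem (hle hs.1).1)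
    refine MonoidHom.mem_ker.2 ?_
    let a : D := ⟨frobL q ^ i, (hle hiM).1⟩
    let b : D := ⟨ι, hιD⟩
    let c : D := ⟨s, (hle hs.1).1⟩
    have hτe : τ = a * b * c := Subtype.ext e
    have ha : f a = 1 := hfM' a hiM
    have hb : f b = 1 := hunr b hι
    have hc : f c = 1 := hfM' c hs.1
    rw [hτe, map_mul, map_mul, ha, hb, hc, mul_one, mul_one]
  · let w : D := ⟨frobL q ^ M.index, (hle (M.pow_index_mem _)).1⟩
    show n ∣ orderOf (u w)
    have hw : Multiplicative.toAdd (u w) = (M.index : ZMod (n * M.index)) :=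
      frobExp_frobL_pow M.index
    have h1 := congrArg Multiplicative.toAdd (pow_orderOf_eq_one (u w))
    rw [toAdd_pow, hw, toAdd_one, nsmul_eq_mul, ← Nat.cast_mul,
      ZMod.natCast_eq_zero_iff] at h1
    exact Nat.dvd_of_mul_dvd_mul_right (Nat.pos_of_ne_zero hm0) h1

/-- **Unramified local homomorphisms lift**, with a prescribed value at a Frobenius element. -/
theorem exists_unr_local_lift {D : Subgroup (LG q)} (hD : D ∈ (LL q).carrier) {E G : Type*}
    [Group E] [Finite E] [Group G] (π : E →* G) (f : D →* G) (hlc : LC₁ ((LL q).sub D) f)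
    (hunr : ∀ τ : D, (τ : LG q) ∈ inertL q → f τ = 1) :
    ∃ τ₀ : D, ∀ e, π e = f τ₀ → ∃ β : D →* E, LC₁ ((LL q).sub D) β ∧
      (∀ τ : D, (τ : LG q) ∈ inertL q → β τ = 1) ∧ (∀ τ, π (β τ) = f τ) ∧ β τ₀ = e := by
  obtain ⟨N, hN, u, hulc, hu, hker, w, hw⟩ :=
    exists_unr_quotient hD f hlc hunr (Nat.card_pos (α := E))
  obtain ⟨⟨_, τ₀, rfl⟩, hgen⟩ := IsCyclic.exists_generator (α := u.range)
  refine ⟨τ₀, fun e he => ?_⟩
  have hord : orderOf e ∣ orderOf (⟨u τ₀, τ₀, rfl⟩ : u.range) := by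
    obtain ⟨j, hj⟩ := hgen ⟨u w, w, rfl⟩
    refine (orderOf_dvd_natCard e).trans (hw.trans (orderOf_dvd_of_pow_eq_one ?_))
    have hj' : u τ₀ ^ j = u w := congrArg Subtype.val hj
    rw [← Subgroup.orderOf_coe, ← hj', ← zpow_natCast, ← zpow_mul, mul_comm, zpow_mul,
      zpow_natCast, pow_orderOf_eq_one, one_zpow]
  let φ : u.range →* E := monoidHomOfForallMemZpowers hgen hord
  have hφ : φ ⟨u τ₀, τ₀, rfl⟩ = e := monoidHomOfForallMemZpowers_apply_gen hgen hord
  refine ⟨φ.comp u.rangeRestrict, ?_, fun τ hτ => ?_, fun τ => ?_, hφ⟩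
  · obtain ⟨M, hM, hs⟩ := hulc
    exact ⟨M, hM, fun g s h => congrArg φ (Subtype.ext (hs g s h))⟩
  · rw [MonoidHom.comp_apply, show u.rangeRestrict τ = 1 from Subtype.ext (hu τ hτ), map_one]
  · obtain ⟨j, hj⟩ := hgen (u.rangeRestrict τ)
    have hj' : u τ₀ ^ j = u τ := congrArg Subtype.val hj
    have h1 : (τ₀ ^ j)⁻¹ * τ ∈ f.ker := hker (MonoidHom.mem_ker.2 (by
      rw [map_mul, map_inv, map_zpow, hj', inv_mul_cancel]))
    rw [MonoidHom.mem_ker, map_mul, map_inv, map_zpow, inv_mul_eq_one] at h1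
    rw [← h1, MonoidHom.comp_apply, ← hj, map_zpow, map_zpow, hφ, he]

/-- An additive character as a cocycle. -/
theorem mem_Z1_triv {D : Type} [Group D] {L : Levels D} {c : D → ZMod p} (hlc : LC₁ L c)
    (hc : ∀ a b, c (a * b) = c a + c b) : c ∈ Z1 L (triv D p) :=
  ⟨hlc, fun g h => by rw [hc, add_comm]; rfl⟩

theorem Z1_triv_mul {D : Type} [Group D] {L : Levels D} (c : ↥(Z1 L (triv D p))) (a b : D) :
    c.1 (a * b) = c.1 a + c.1 b := by rw [c.2.2 a b, add_comm]; rfl

/-- There is an unramified character of order `p`. -/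
theorem exists_unr_char {D : Subgroup (LG q)} (hD : D ∈ (LL q).carrier) :
    ∃ c : ↥(Z1 ((LL q).sub D) (triv D p)), (∀ τ : D, (τ : LG q) ∈ inertL q → c.1 τ = 0) ∧
      c ≠ 0 := by
  obtain ⟨τ₀, h⟩ := exists_unr_local_lift hD (1 : Multiplicative (ZMod p) →* PUnit.{1}) 1
    (LC₁.const 1) fun _ _ => rfl
  obtain ⟨β, hβlc, hβ, -, hβ₀⟩ := h (Multiplicative.ofAdd 1) rfl
  refine ⟨⟨fun τ => Multiplicative.toAdd (β τ), mem_Z1_triv (hβlc.comp Multiplicative.toAdd)
    fun a b => by rw [map_mul, toAdd_mul]⟩, fun τ hτ => ?_, fun h0 => ?_⟩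
  · show Multiplicative.toAdd (β τ) = 0
    rw [hβ τ hτ, toAdd_one]
  · have h1 : Multiplicative.toAdd (β τ₀) = 0 := congrFun (congrArg Subtype.val h0) τ₀
    rw [hβ₀, toAdd_ofAdd] at h1
    exact one_ne_zero h1

/-! ### Extension by zero from one place -/

variable {X : Type} [Fintype X] [MulAction GQ X] (T : Trans LQ X)

/-- The orbit of the decomposition group through the point of `g`. -/
def InOrb (q : ℕ) [Fact q.Prime] (g : GQ) (x : X) : Prop :=
  ∃ t : LG q, loc q t • g • T.x0 = x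

open Classical in
/-- An element of the decomposition group carrying the point of `g` to `x`. -/
def orbitRep (q : ℕ) [Fact q.Prime] (g : GQ) (x : X) : LG q :=
  if x = g • T.x0 then 1 else if h : InOrb T q g x then h.choose else 1

theorem orbitRep_spec {g : GQ} {x : X} (h : InOrb T q g x) :
    loc q (orbitRep T q g x) • g • T.x0 = x := by
  rw [orbitRep]
  split_ifs with h1
  · rw [map_one, one_smul, h1]
  · exact h.choose_spec

theorem orbitRep_self (g : GQ) : orbitRep T q g (g • T.x0) = 1 := by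
  rw [orbitRep, if_pos rfl]

theorem inOrb_inv_smul {g : GQ} {x : X} (τ : LG q) :
    InOrb T q g ((loc q τ)⁻¹ • x) ↔ InOrb T q g x := by
  constructor
  · rintro ⟨t, ht⟩
    exact ⟨τ * t, by rw [map_mul, mul_smul, ht, smul_inv_smul]⟩
  · rintro ⟨t, ht⟩
    exact ⟨τ⁻¹ * t, by rw [map_mul, mul_smul, ht, map_inv]⟩

theorem orbitFactor_mem {g : GQ} {x : X} (h : InOrb T q g x) (τ : LG q) :
    (orbitRep T q g x)⁻¹ * τ * orbitRep T q g ((loc q τ)⁻¹ • x) ∈ hloc T.H q g := by
  refine T.mem_hloc_of_smul ?_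
  rw [map_mul, map_mul, mul_smul, mul_smul,
    orbitRep_spec T ((inOrb_inv_smul T τ).2 h), smul_inv_smul, map_inv, inv_smul_eq_iff,
    orbitRep_spec T h]

open Classical in
/-- The cochain of a class at one place, extended by zero. -/
def shCochain (g : GQ) (c : hloc T.H q g → ZMod p) : LG q → X → ZMod p :=
  fun τ x => if h : InOrb T q g x then c ⟨_, orbitFactor_mem T h τ⟩ else 0

theorem shCochain_mem (g : GQ) (c : ↥(Z1 ((LL q).sub (hloc T.H q g)) (triv (hloc T.H q g) p))) :
    shCochain T g c.1 ∈ Z1 (LL q) ((T.perm p).comp (loc q)) := by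
  refine ⟨?_, fun τ σ => funext fun x => ?_⟩
  · obtain ⟨_, ⟨M, hM, rfl⟩, hcM⟩ := c.2.1
    obtain ⟨N, hN, hle, hn⟩ := (LL q).exists_normal
      ((LL q).inf_mem hM (hloc_mem T.mem_LQ g))
    refine ⟨N, hN, fun τ s hs => funext fun x => ?_⟩
    by_cases h : InOrb T q g x
    swap
    · simp only [shCochain, dif_neg h]
    have hy : (loc q (τ * s))⁻¹ • x = (loc q τ)⁻¹ • x := by
      obtain ⟨t, ht⟩ := (inOrb_inv_smul T τ).2 h
      have hfix : loc q s • loc q t • g • T.x0 = loc q t • g • T.x0 := by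
        rw [← mul_smul (loc q s) (loc q t), ← map_mul, show s * t = t * (t⁻¹ * s * t) by group,
          map_mul, mul_smul, T.smul_eq_of_mem_hloc (hle (hn.conj_mem' s hs t)).2]
      rw [map_mul, mul_inv_rev, mul_smul, inv_smul_eq_iff, ← ht]
      exact hfix.symm
    simp only [shCochain, dif_pos h]
    set t' := orbitRep T q g ((loc q τ)⁻¹ • x) with ht'
    refine Eq.trans (congrArg c.1 (Subtype.ext (?_ : _ = _)))
      (hcM ⟨_, orbitFactor_mem T h τ⟩ ⟨t'⁻¹ * s * t', (hle (hn.conj_mem' s hs t')).2⟩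
        (Subgroup.mem_subgroupOf.2 (hle (hn.conj_mem' s hs t')).1))
    show _ = (orbitRep T q g x)⁻¹ * τ * t' * (t'⁻¹ * s * t')
    simp only [hy, ← ht']
    group
  · show shCochain T g c.1 (τ * σ) x
      = shCochain T g c.1 σ ((loc q τ)⁻¹ • x) + shCochain T g c.1 τ x
    by_cases h : InOrb T q g x
    swap
    · simp only [shCochain, dif_neg h, dif_neg fun h' => h ((inOrb_inv_smul T τ).1 h'), add_zero]
    simp only [shCochain, dif_pos h, dif_pos ((inOrb_inv_smul T τ).2 h)]
    rw [add_comm, ← Z1_triv_mul]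
    refine congrArg c.1 (Subtype.ext ?_)
    rw [Subgroup.coe_mul]
    simp only [map_mul, mul_inv_rev, mul_smul]
    group

/-- **Extension by zero**: the local Shapiro map has a section at each place. -/
def shSection (q : ℕ) [Fact q.Prime] (g : GQ) :
    ↥(Z1 ((LL q).sub (hloc T.H q g)) (triv (hloc T.H q g) p)) →ₗ[ZMod p]
      H1 (LL q) ((T.perm p).comp (loc q)) :=
  mk1 (LL q) ((T.perm p).comp (loc q)) ∘ₗ
    { toFun := fun c => ⟨_, shCochain_mem T g c⟩
      map_add' := fun c c' => Subtype.ext (funext fun τ => funext fun x => by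
        show shCochain T g (c.1 + c'.1) τ x = shCochain T g c.1 τ x + shCochain T g c'.1 τ x
        by_cases h : InOrb T q g x <;> simp [shCochain, h])
      map_smul' := fun a c => Subtype.ext (funext fun τ => funext fun x => by
        show shCochain T g (a • c.1) τ x = a • shCochain T g c.1 τ x
        by_cases h : InOrb T q g x <;> simp [shCochain, h]) }

theorem locSh_shSection_self (g : GQ)
    (c : ↥(Z1 ((LL q).sub (hloc T.H q g)) (triv (hloc T.H q g) p))) :
    T.locSh q g (shSection T q g c)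
      = mk1 ((LL q).sub (hloc T.H q g)) (triv (hloc T.H q g) p) c := by
  refine congrArg (mk1 _ (triv (hloc T.H q g) p)) (Subtype.ext (funext fun τ => ?_))
  have hτ : (loc q (τ : LG q))⁻¹ • g • T.x0 = g • T.x0 :=
    inv_smul_eq_iff.2 (T.smul_eq_of_mem_hloc τ.2).symm
  show shCochain T g c.1 (τ : LG q) (g • T.x0) = c.1 τ
  rw [shCochain, dif_pos ⟨1, by rw [map_one, one_smul]⟩]
  refine congrArg c.1 (Subtype.ext ?_)
  show (orbitRep T q g (g • T.x0))⁻¹ * (τ : LG q) * orbitRep T q g _ = τ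
  rw [hτ, orbitRep_self, inv_one, one_mul, mul_one]

theorem locSh_shSection_ne {g g' : GQ} (h : placeQ (H := T.H) (q := q) g' ≠ placeQ g)
    (c : ↥(Z1 ((LL q).sub (hloc T.H q g)) (triv (hloc T.H q g) p))) :
    T.locSh q g' (shSection T q g c) = 0 := by
  refine (T.locSh_eq_zero_iff g' _).2 fun τ => ?_
  show shCochain T g c.1 (τ : LG q) (g' • T.x0) = 0
  rw [shCochain, dif_neg]
  rintro ⟨t, ht⟩
  refine h (placeQ_eq_iff.2 ⟨t, (loc q t * g)⁻¹ * g', ?_, by group⟩)
  rw [MulAction.mem_stabilizer_iff, mul_smul, inv_smul_eq_iff, mul_smul]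
  exact ht.symm

/-! ### The unramified condition -/

/-- The cocycles of a local subgroup vanishing on inertia. -/
def unrSubZ (D : Subgroup (LG q)) : Submodule (ZMod p) ↥(Z1 ((LL q).sub D) (triv D p)) where
  carrier := {c | ∀ τ : D, (τ : LG q) ∈ inertL q → c.1 τ = 0}
  zero_mem' _ _ := rfl
  add_mem' {c c'} h h' τ hτ := by
    show c.1 τ + c'.1 τ = 0
    rw [h τ hτ, h' τ hτ, add_zero]
  smul_mem' a c h τ hτ := by
    show a • c.1 τ = 0
    rw [h τ hτ, smul_zero]

/-- The unramified classes of a local subgroup. -/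
def unrSub (p : ℕ) [Fact p.Prime] (D : Subgroup (LG q)) :
    Submodule (ZMod p) (H1 ((LL q).sub D) (triv D p)) :=
  (unrSubZ D).map (mk1 ((LL q).sub D) (triv D p))

theorem mk1_mem_unrSub {D : Subgroup (LG q)} {c : ↥(Z1 ((LL q).sub D) (triv D p))} :
    mk1 ((LL q).sub D) (triv D p) c ∈ unrSub p D ↔ ∀ τ : D, (τ : LG q) ∈ inertL q → c.1 τ = 0 := by
  refine ⟨fun ⟨c', hc', e⟩ => ?_, fun h => ⟨c, h, rfl⟩⟩
  rw [← mk1_triv_injective e]
  exact hc'

variable (p) in
/-- **The unramified classes** at `q`: unramified at every place above `q`. -/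
def unrCond (q : ℕ) [Fact q.Prime] :
    Submodule (ZMod p) (H1 (LL q) ((T.perm p).comp (loc q))) :=
  ⨅ g : GQ, (unrSub p (hloc T.H q g)).comap (T.locSh q g)

theorem mem_unrCond {y : H1 (LL q) ((T.perm p).comp (loc q))} :
    y ∈ unrCond p T q ↔ ∀ g : GQ, T.locSh q g y ∈ unrSub p (hloc T.H q g) := by
  simp only [unrCond, Submodule.mem_iInf, Submodule.mem_comap]

theorem mk1_mem_unrCond {f : ↥(Z1 (LL q) ((T.perm p).comp (loc q)))} :
    mk1 (LL q) ((T.perm p).comp (loc q)) f ∈ unrCond p T q ↔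
      ∀ g : GQ, ∀ τ : hloc T.H q g, (τ : LG q) ∈ inertL q → f.1 (τ : LG q) (g • T.x0) = 0 :=
  (mem_unrCond T).trans (forall_congr' fun _ => mk1_mem_unrSub)

theorem shSection_mem_unrCond (g : GQ)
    {c : ↥(Z1 ((LL q).sub (hloc T.H q g)) (triv (hloc T.H q g) p))}
    (hc : ∀ τ : hloc T.H q g, (τ : LG q) ∈ inertL q → c.1 τ = 0) :
    shSection T q g c ∈ unrCond p T q := by
  refine (mk1_mem_unrCond T).2 fun g' τ hτ => ?_
  show shCochain T g c.1 (τ : LG q) (g' • T.x0) = 0
  rw [shCochain]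
  split_ifs with h
  · refine hc _ ?_
    show (orbitRep T q g (g' • T.x0))⁻¹ * (τ : LG q) * orbitRep T q g _ ∈ inertL q
    rw [inv_smul_eq_iff.2 (T.smul_eq_of_mem_hloc τ.2).symm]
    simpa using conj_mem_inertL hτ (orbitRep T q g (g' • T.x0))⁻¹
  · rfl

/-- The canonical pairing of the permutation module. -/
def permDual : DPair LQ (cycQ p).χ (T.perm p) ((T.perm p).dual.twist (cycQ p).χ) :=
  DPair.canonical (T.perm p) T.smooth_perm (cycQ p).smooth_chr

theorem finiteDimensional_local (q : ℕ) [Fact q.Prime] :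
    FiniteDimensional (ZMod p) (H1 (LL q) ((T.perm p).comp (loc q))) :=
  (perfectQ q (permDual T)).fin1

/-- The unramified classes are at least as many as the invariants. -/
theorem finrank_invariants_le_unrCond (q : ℕ) [Fact q.Prime] :
    Module.finrank (ZMod p) ↥(Representation.invariants ((T.perm p).comp (loc q)))
      ≤ Module.finrank (ZMod p) (unrCond p T q) := by
  classical
  have := LQ.finiteIndex T.mem_LQ
  let _ : Fintype (PlaceOver T.H q) := Fintype.ofFinite _
  have := finiteDimensional_local (p := p) T q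
  choose c hc hc0 using fun v : PlaceOver T.H q =>
    exists_unr_char (p := p) (hloc_mem (q := q) T.mem_LQ (repQ v))
  let Φ : ↥(Representation.invariants ((T.perm p).comp (loc q))) →ₗ[ZMod p]
      H1 (LL q) ((T.perm p).comp (loc q)) :=
    (∑ v : PlaceOver T.H q,
      (LinearMap.proj (repQ v • T.x0)).smulRight (shSection T q (repQ v) (c v))) ∘ₗ
        Submodule.subtype _
  have hΦ : ∀ l, Φ l = ∑ v, l.1 (repQ v • T.x0) • shSection T q (repQ v) (c v) := fun l => by
    simp [Φ]
  let Φ' := Φ.codRestrict (unrCond p T q) fun l => by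
    rw [hΦ]
    exact Submodule.sum_mem _ fun v _ =>
      Submodule.smul_mem _ _ (shSection_mem_unrCond T _ (hc v))
  refine LinearMap.finrank_le_finrank_of_injective (f := Φ')
    ((injective_iff_map_eq_zero Φ').2 fun l hl => ?_)
  have hl' : Φ l = 0 := congrArg Subtype.val hl
  have hval : ∀ v : PlaceOver T.H q, l.1 (repQ v • T.x0) = 0 := fun v => by
    have h := congrArg (T.locSh q (repQ v)) hl'
    rw [hΦ, map_zero, map_sum, Finset.sum_eq_single v (fun w _ hw => by
      rw [map_smul, locSh_shSection_ne (q := q) T (fun e => hw (by rwa [placeQ_repQ, placeQ_repQ,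
        eq_comm] at e)), smul_zero]) (fun h => absurd (Finset.mem_univ v) h),
      map_smul, locSh_shSection_self, smul_eq_zero] at h
    refine h.resolve_right fun h0 => hc0 v (mk1_triv_injective (h0.trans (map_zero _).symm))
  refine Subtype.ext (funext fun x => ?_)
  obtain ⟨τ, s, hs, e⟩ := placeQ_eq_iff.1 (placeQ_repQ (placeQ (H := T.H) (q := q) (T.t x))).symm
  have hx : x = loc q τ • repQ (placeQ (H := T.H) (q := q) (T.t x)) • T.x0 := by
    conv_lhs => rw [← T.t_smul x, e, mul_smul, mul_smul, MulAction.mem_stabilizer_iff.1 hs]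
  have hinv := congrFun (l.2 τ) x
  rw [MonoidHom.comp_apply, Trans.perm_apply] at hinv
  rw [← hinv]
  conv_lhs => arg 2; rw [hx, inv_smul_smul]
  exact hval _

end Fermat.Agent.GolodCriterion
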