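import Fermat.Agent.GolodCriterion.Classes

/-!
# The cokernel of localisation into the ramified parts

The global classes of the permutation module fail to fill the local classes modulo the unramified
ones by at most the number of generators, the roots of unity and the archimedean places less one.
-/

set_option autoImplicit false
set_option linter.unusedSectionVars false

noncomputable section

namespace Fermat.Agent.GolodCriterion

open FA.GalCoh Representation

variable {p : ℕ} [hp : Fact p.Prime]
variable {X : Type} [Fintype X] [MulAction GQ X] (T : Trans LQ X)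

variable (p) in
/-- The local classes at `q` modulo the unramified ones. -/
abbrev UnrQuotAt (q : ℕ) [Fact q.Prime] : Type :=
  H1 (LL q) ((T.perm p).comp (loc q)) ⧸ unrCond p T q

/-- The group structure on the local classes modulo the unramified ones. -/
instance addCommGroupUnrQuotAt (q : ℕ) [Fact q.Prime] : AddCommGroup (UnrQuotAt p T q) :=
  Submodule.Quotient.addCommGroup (unrCond p T q)

/-- The vector space structure on the local classes modulo the unramified ones. -/
instance moduleUnrQuotAt (q : ℕ) [Fact q.Prime] : Module (ZMod p) (UnrQuotAt p T q) :=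
  Submodule.Quotient.module (unrCond p T q)

variable (p) in
/-- The local classes at the primes of `S` modulo the unramified ones. -/
abbrev UnrQuot (S : Finset Nat.Primes) : Type :=
  ∀ q : {q : Nat.Primes // q ∈ S}, UnrQuotAt p T (q.1 : ℕ)

/-- The group structure on the product over `S`. -/
instance addCommGroupUnrQuot (S : Finset Nat.Primes) : AddCommGroup (UnrQuot p T S) :=
  Pi.addCommGroup

/-- The vector space structure on the product over `S`. -/
instance moduleUnrQuot (S : Finset Nat.Primes) : Module (ZMod p) (UnrQuot p T S) :=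
  Pi.module _ _ _

variable (p) in
/-- The unramified conditions at the primes of `S`. -/
def unrConds (S : Finset Nat.Primes) : LocCond S (T.perm p) :=
  fun q => unrCond p T (q.1 : ℕ)

variable (p) in
/-- Localisation of the classes unramified outside `S`. -/
def toQuot (S : Finset Nat.Primes) :
    ↥(selS S (T.perm p) fun _ => ⊤) →ₗ[ZMod p] UnrQuot p T S :=
  (LinearMap.pi fun q => (unrCond p T (q.1 : ℕ)).mkQ ∘ₗ resq1 (q.1 : ℕ) (T.perm p)) ∘ₗ
    Submodule.subtype _

theorem toQuot_apply (S : Finset Nat.Primes) (x : ↥(selS S (T.perm p) fun _ => ⊤))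
    (q : {q : Nat.Primes // q ∈ S}) :
    toQuot p T S x q = (unrCond p T (q.1 : ℕ)).mkQ (resq1 (q.1 : ℕ) (T.perm p) x.1) := rfl

/-- **The cokernel bound.** -/
theorem finrank_coker_add_one_le (hp2 : p ≠ 2) {S : Finset Nat.Primes}
    (hpS : (⟨p, hp.out⟩ : Nat.Primes) ∈ S)
    (hunr : ∀ q : Nat.Primes, q ∉ S → UnrRep ((T.perm p).comp (loc (q : ℕ)))) :
    Module.finrank (ZMod p) (UnrQuot p T S ⧸ LinearMap.range (toQuot p T S)) + 1
      ≤ Module.finrank (ZMod p) (selS S (T.perm p) (unrConds p T S))
        + Module.finrank (ZMod p) ↥((T.perm p).dual.twist (cycQ p).χ).invariants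
        + Module.finrank (ZMod p) (LinearMap.ker (T.perm p complexConjugation - 1)) := by
  classical
  have := finite_unrOutside_of (permDual (p := p) T) hp2 S
  have : FiniteDimensional (ZMod p) (unrOutside S (T.perm p)) := Module.Finite.of_finite
  have h1 := finiteDimensional_local (p := p) (T := T)
  have hfl : ∀ q : {q : Nat.Primes // q ∈ S},
      FiniteDimensional (ZMod p) (H1 (LL (q.1 : ℕ)) ((T.perm p).comp (loc (q.1 : ℕ)))) :=
    fun q => h1 (q.1 : ℕ)
  have : FiniteDimensional (ZMod p) (selS S (T.perm p) fun _ => ⊤) :=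
    Submodule.finiteDimensional_of_le (selS_le S _)
  have : FiniteDimensional (ZMod p) (selS S (T.perm p) (unrConds p T S)) :=
    Submodule.finiteDimensional_of_le (selS_le S _)
  have hfq : ∀ q : {q : Nat.Primes // q ∈ S}, Module.Finite (ZMod p) (UnrQuotAt p T (q.1 : ℕ)) :=
    fun q => Module.Finite.of_surjective (unrCond p T (q.1 : ℕ)).mkQ (Submodule.mkQ_surjective _)
  have : Module.Finite (ZMod p) (UnrQuot p T S) := Module.Finite.pi
  -- the Greenberg-Wiles formula without conditions
  have hGW := finrank_selS_formula (permDual (p := p) T) hp2 hpS hunr fun _ => ⊤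
  simp only [finrank_top] at hGW
  have hinv : 1 ≤ Module.finrank (ZMod p) ↥(T.perm p).invariants := by
    rw [(T.invEquiv (triv T.H p)).finrank_eq, show (triv T.H p).invariants = ⊤ from
      eq_top_iff.2 fun v _ _ => rfl, finrank_top, Module.finrank_self]
  -- rank and nullity
  have hker : Module.finrank (ZMod p) (LinearMap.ker (toQuot p T S))
      ≤ Module.finrank (ZMod p) (selS S (T.perm p) (unrConds p T S)) := by
    let i : LinearMap.ker (toQuot p T S) →ₗ[ZMod p] selS S (T.perm p) (unrConds p T S) :=
      ((Submodule.subtype _) ∘ₗ (Submodule.subtype _)).codRestrict _ fun x =>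
        mem_selS.2 ⟨(mem_selS.1 x.1.2).1, fun q => (Submodule.Quotient.mk_eq_zero _).1 (by
          exact congrFun (LinearMap.mem_ker.1 x.2) q)⟩
    refine LinearMap.finrank_le_finrank_of_injective (f := i) fun a b h => ?_
    have h' := congrArg Subtype.val h
    exact Subtype.ext (Subtype.ext h')
  have hrk := LinearMap.finrank_range_add_finrank_ker (toQuot p T S)
  have hq := Submodule.finrank_quotient_add_finrank (LinearMap.range (toQuot p T S))
  have hQ : Module.finrank (ZMod p) (UnrQuot p T S)
      + ∑ q : {q // q ∈ S}, Module.finrank (ZMod p) (unrCond p T (q.1 : ℕ))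
      = ∑ q : {q // q ∈ S},
          Module.finrank (ZMod p) (H1 (LL (q.1 : ℕ)) ((T.perm p).comp (loc (q.1 : ℕ)))) := by
    have hpi : Module.finrank (ZMod p) (UnrQuot p T S)
        = ∑ q : {q // q ∈ S}, Module.finrank (ZMod p) (UnrQuotAt p T (q.1 : ℕ)) :=
      Module.finrank_pi_fintype (ZMod p)
    rw [hpi, ← Finset.sum_add_distrib]
    exact Finset.sum_congr rfl fun q _ => Submodule.finrank_quotient_add_finrank _
  have hU := Finset.sum_le_sum fun q (_ : q ∈ (Finset.univ : Finset {q // q ∈ S})) =>
    finrank_invariants_le_unrCond (p := p) T (q.1 : ℕ)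
  omega

/-- The classes unramified everywhere are at most as many as the generators of a group through
which their characters factor. -/
theorem finrank_selS_unr_le {S : Finset Nat.Primes} {G ι : Type} [Group G] [Fintype ι]
    {ρ : T.H →* G} {σ : ι → T.H} (hσ : Subgroup.closure (Set.range fun i => ρ (σ i)) = ⊤)
    (hρ : ∀ h : T.H →* Multiplicative (ZMod p), UnrClass p T.H h → ρ.ker ≤ h.ker) :
    Module.finrank (ZMod p) (selS S (T.perm p) (unrConds p T S)) ≤ Fintype.card ι := by
  classical
  let Ψ : selS S (T.perm p) (unrConds p T S) →ₗ[ZMod p] (ι → ZMod p) :=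
    LinearMap.pi fun i => LinearMap.proj (σ i) ∘ₗ Submodule.subtype _ ∘ₗ homOf p T ∘ₗ
      Submodule.subtype _
  refine (LinearMap.finrank_le_finrank_of_injective (f := Ψ)
    ((injective_iff_map_eq_zero Ψ).2 fun x hx => Subtype.ext (homOf_injective (p := p) T ?_))).trans
      (by rw [Module.finrank_fintype_fun_eq_card])
  have hu : UnrClass p T.H (toHom (homOf p T x.1)) := unrClass_homOf T fun q => by
    by_cases hq : q ∈ S
    · exact (mem_selS.1 x.2).2 ⟨q, hq⟩
    · exact unrH1_le_unrCond T (q : ℕ) (mem_unrOutside.1 (mem_selS.1 x.2).1 q hq)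
  have hle := hρ _ hu
  rw [show ((0 : selS S (T.perm p) (unrConds p T S)) : H1 LQ (T.perm p)) = 0 from rfl, map_zero]
  refine Subtype.ext (funext fun s => ?_)
  have hmem : s ∈ (toHom (homOf p T x.1)).ker := by
    have hs : ρ s ∈ (toHom (homOf p T x.1)).ker.map ρ := by
      refine (hσ ▸ Subgroup.mem_top (ρ s) : ρ s ∈ Subgroup.closure _) |> fun h => ?_
      refine (Subgroup.closure_le _).2 ?_ h
      rintro _ ⟨i, rfl⟩
      refine ⟨σ i, MonoidHom.mem_ker.2 ?_, rfl⟩
      show Multiplicative.ofAdd ((homOf p T x.1).1 (σ i)) = 1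
      rw [show (homOf p T x.1).1 (σ i) = 0 from congrFun hx i, ofAdd_zero]
    obtain ⟨t, ht, he⟩ := hs
    have : t⁻¹ * s ∈ ρ.ker := by rw [MonoidHom.mem_ker, map_mul, map_inv, he, inv_mul_cancel]
    simpa using mul_mem ht (hle this)
  exact Multiplicative.ofAdd.injective (hmem.trans ofAdd_zero.symm)

/-- The twisted dual of the permutation module has invariants only with the roots of unity. -/
theorem finrank_invariants_dual_le [Decidable (∀ s ∈ T.H, ExtCitation.cycloChar p s = 1)] :
    Module.finrank (ZMod p) ↥((T.perm p).dual.twist (cycQ p).χ).invariants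
      ≤ if ∀ s ∈ T.H, ExtCitation.cycloChar p s = 1 then 1 else 0 := by
  classical
  set σ' := (T.perm p).dual.twist (cycQ p).χ
  let e₀ : X → ZMod p := Pi.single T.x0 1
  have hval : ∀ (φ : ↥σ'.invariants) (g : GQ) (v : X → ZMod p),
      ((cycQ p).χ g : ZMod p) * φ.1 (T.perm p g⁻¹ v) = φ.1 v := fun φ g v => by
    have h := LinearMap.congr_fun (φ.2 g) v
    simpa [σ', Representation.twist_apply_apply, Representation.dual_apply,
      Module.Dual.transpose_apply] using h
  have hperm : ∀ x, T.perm p (T.t x)⁻¹ (Pi.single x 1) = e₀ := fun x => funext fun y => by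
    rw [Trans.perm_apply, inv_inv]
    by_cases hy : y = T.x0
    · subst hy
      rw [T.t_smul]
      simp [e₀]
    · have hne : T.t x • y ≠ x := fun h => hy (by
        rw [← T.inv_t_smul x]
        exact (eq_inv_smul_iff.2 h))
      rw [Pi.single_eq_of_ne hne]
      simp [e₀, hy]
  let Ψ : ↥σ'.invariants →ₗ[ZMod p] ZMod p :=
    (LinearMap.applyₗ e₀) ∘ₗ Submodule.subtype _
  have hΨ : Function.Injective Ψ := LinearMap.ker_eq_bot.1 <| LinearMap.ker_eq_bot'.2 fun φ hφ =>
    Subtype.ext (LinearMap.pi_ext' fun x => LinearMap.ext_ring (by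
      have h := hval φ (T.t x) (Pi.single x 1)
      rw [hperm] at h
      show φ.1 (Pi.single x 1) = 0
      rw [← h, show φ.1 e₀ = 0 from hφ, mul_zero]))
  split_ifs with hμ
  · exact (LinearMap.finrank_le_finrank_of_injective hΨ).trans_eq (Module.finrank_self _)
  · obtain ⟨s, hs, hs1⟩ : ∃ s ∈ T.H, ExtCitation.cycloChar p s ≠ 1 := by simpa using hμ
    have hzero : ∀ φ, Ψ φ = 0 := fun φ => by
      have h := hval φ s e₀
      have hfix : T.perm p s⁻¹ e₀ = e₀ := funext fun y => by
        rw [Trans.perm_apply, inv_inv]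
        have hiff : s • y = T.x0 ↔ y = T.x0 :=
          ⟨fun h => smul_left_cancel s (h.trans (MulAction.mem_stabilizer_iff.1 hs).symm),
            fun h => by rw [h]; exact MulAction.mem_stabilizer_iff.1 hs⟩
        simp [e₀, Pi.single_apply, hiff]
      rw [hfix, cycQ_chi] at h
      have h2 : (((ExtCitation.cycloChar p s : (ZMod p)ˣ) : ZMod p) - 1) * Ψ φ = 0 := by
        rw [sub_mul, one_mul]
        exact sub_eq_zero.2 h
      exact (mul_eq_zero.1 h2).resolve_left fun h0 => hs1 (Units.ext (sub_eq_zero.1 h0))
    have : Subsingleton ↥σ'.invariants :=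
      ⟨fun a b => hΨ ((hzero a).trans (hzero b).symm)⟩
    rw [Module.finrank_zero_of_subsingleton]

/-- The functions fixed by complex conjugation. -/
theorem finrank_ker_conj_le {P : Type} [Fintype P] (π : X → P)
    (hπ : ∀ x y, π x = π y → y = x ∨ y = complexConjugation • x) :
    Module.finrank (ZMod p) (LinearMap.ker (T.perm p complexConjugation - 1)) ≤ Fintype.card P := by
  classical
  let sect : P → X := fun a => if h : ∃ x, π x = a then h.choose else T.x0
  have hsect : ∀ x, π (sect (π x)) = π x := fun x => by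
    show π (dite _ _ _) = _
    rw [dif_pos ⟨x, rfl⟩]
    exact (⟨x, rfl⟩ : ∃ x', π x' = π x).choose_spec
  let Ψ : LinearMap.ker (T.perm p complexConjugation - 1) →ₗ[ZMod p] (P → ZMod p) :=
    (LinearMap.pi fun a => LinearMap.proj (sect a)) ∘ₗ Submodule.subtype _
  refine (LinearMap.finrank_le_finrank_of_injective (f := Ψ)
    ((injective_iff_map_eq_zero Ψ).2 fun f hf => Subtype.ext (funext fun x => ?_))).trans
      (by rw [Module.finrank_fintype_fun_eq_card])
  have h0 : f.1 (sect (π x)) = 0 := congrFun hf (π x)
  rcases hπ _ _ (hsect x) with h | h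
  · rw [h]; exact h0
  · have hfix := congrFun (LinearMap.mem_ker.1 f.2) (sect (π x))
    rw [LinearMap.sub_apply, Pi.sub_apply, Module.End.one_apply, Trans.perm_apply, h0, sub_zero,
      complexConjugation_inv, ← h] at hfix
    exact hfix

end Fermat.Agent.GolodCriterion
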