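import Fermat.Agent.GolodCriterion.Relations

/-!
# The criterion of Golod and Shafarevich for open subgroups of the Galois group of `ℚ`

With bounded unramified `p`-extensions the largest group has `d` generators and at most
`d + r₁ + r₂ - 1 + δ` relations, so `d²` is less than four times this.
-/

set_option autoImplicit false
set_option linter.unusedSectionVars false

noncomputable section

namespace Fermat.Agent.GolodCriterion

open FA.GalCoh ScholzReichardt Fermat.Agent.GolodShafarevich

variable {p : ℕ} [hp : Fact p.Prime]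
variable {X : Type} [Fintype X] [MulAction GQ X] (T : Trans LQ X)

/-- **The criterion**, in group language. -/
theorem not_unrBounded (hp2 : p ≠ 2) {P : Type} [Fintype P] (pl : X → P)
    (hpl : ∀ a b, pl a = pl b → b = a ∨ b = complexConjugation • a)
    [Decidable (∀ s ∈ T.H, ExtCitation.cycloChar p s = 1)] {d : ℕ} (hd : 3 ≤ d)
    {f : T.H →* Multiplicative (Fin d → ZMod p)} (hfs : Function.Surjective f)
    (hf : UnrClass p T.H f)
    (hcount : 4 * (d + (if ∀ s ∈ T.H, ExtCitation.cycloChar p s = 1 then 1 else 0)
      + Fintype.card P) ≤ d ^ 2 + 4) (B : ℕ) : ¬ UnrBounded p T.H B := fun hB => by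
  obtain ⟨G, _, _, ρ, hρ, hc, hmax⟩ := exists_maximal hB
  have hG : IsPGroup p G := hc.isPGroup hρ
  -- the class group bounds the generators below
  let f' : G →* Multiplicative (Fin d → ZMod p) :=
    ρ.liftOfSurjective hρ ⟨f, hmax _ f hf⟩
  have hf's : Function.Surjective f' := fun v => by
    obtain ⟨s, rfl⟩ := hfs v
    exact ⟨ρ s, MonoidHom.liftOfRightInverse_comp_apply _ _ _ _ s⟩
  have hrank : d ≤ Group.rank G := by simpa using card_le_rank (p := p) f' hf's
  -- a minimal presentation
  obtain ⟨S, hS, hgen⟩ := Group.rank_spec G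
  let x : Fin (Group.rank G) → G := fun i => ((S.equivFinOfCardEq hS).symm i : G)
  have hx : Subgroup.closure (Set.range x) = ⊤ := by
    rw [← hgen]
    refine congrArg _ (Set.ext fun g => ⟨?_, fun hg => ⟨S.equivFinOfCardEq hS ⟨g, hg⟩, ?_⟩⟩)
    · rintro ⟨i, rfl⟩
      exact ((S.equivFinOfCardEq hS).symm i).2
    · exact congrArg Subtype.val ((S.equivFinOfCardEq hS).symm_apply_apply ⟨g, hg⟩)
  obtain ⟨n, rel, hn, hrel, hdef⟩ := exists_relations T hp2 hρ hc hmax pl hpl hx
    (Fintype.card_fin _).symm
  have h := card_sq_lt_four_mul_relations x hG hx (Fintype.card_fin _).symm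
    (by rw [Fintype.card_fin]; omega) rel hrel hdef
  rw [Fintype.card_fin, Fintype.card_fin] at h
  rw [Fintype.card_fin] at hn
  have hmono : d * d + 4 * Group.rank G ≤ Group.rank G * Group.rank G + 4 * d := by
    obtain ⟨k, hk⟩ := Nat.exists_eq_add_of_le hrank
    rw [hk]
    nlinarith
  rw [pow_two] at h hcount
  omega

end Fermat.Agent.GolodCriterion
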