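import Fermat.Agent.GolodCriterion.Hasse
import Fermat.Agent.GolodShafarevich.Tower

/-!
# Maximal unramified groups and elementary central extensions

A bound on the unramified `p`-extensions gives a largest one; its embedding problems with
elementary abelian central kernel are soluble, as they are everywhere locally.
-/

set_option autoImplicit false
set_option linter.unusedSectionVars false

noncomputable section

namespace Fermat.Agent.GolodCriterion

open FA.GalCoh ScholzReichardt Fermat.Agent.GolodShafarevich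

variable {p : ℕ} [hp : Fact p.Prime]

/-- The everywhere unramified Galois `p`-extensions of the field of `H` have bounded degree. -/
def UnrBounded (p : ℕ) (H : Subgroup GQ) (B : ℕ) : Prop :=
  ∀ (G : Type) [Group G] [Finite G] (f : H →* G),
    Function.Surjective f → UnrClass p H f → Nat.card G ≤ B

/-- A largest member, through which all the others factor. -/
theorem exists_maximal {H : Subgroup GQ} {B : ℕ} (hB : UnrBounded p H B) :
    ∃ (G : Type) (_ : Group G) (_ : Finite G) (ρ : H →* G), Function.Surjective ρ ∧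
      UnrClass p H ρ ∧
      ∀ (G' : Type) [Group G'] [Finite G'] (f : H →* G'), UnrClass p H f → ρ.ker ≤ f.ker := by
  classical
  let 𝒩 : Set ℕ := {n | ∃ (G : Type) (_ : Group G) (_ : Finite G) (ρ : H →* G),
    Function.Surjective ρ ∧ UnrClass p H ρ ∧ Nat.card G = n}
  have hbdd : BddAbove 𝒩 := ⟨B, by
    rintro n ⟨G, _, _, ρ, h1, h2, rfl⟩
    exact hB G ρ h1 h2⟩
  have hne : 𝒩.Nonempty := ⟨1, PUnit, inferInstance, inferInstance, 1,
    fun x => ⟨1, Subsingleton.elim _ _⟩,
    ⟨LC₁.const 1, fun _ => ⟨0, rfl⟩, fun _ _ _ _ => rfl⟩, Nat.card_unique⟩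
  obtain ⟨G, iG, iF, ρ, hρ, hc, hcard⟩ := Nat.sSup_mem hne hbdd
  refine ⟨G, iG, iF, ρ, hρ, hc, fun G' _ _ σ hσ x hx => ?_⟩
  let τ := (ρ.prod σ).rangeRestrict
  have hle : Nat.card (ρ.prod σ).range ≤ Nat.card G := hcard ▸ le_csSup hbdd
    ⟨_, inferInstance, inferInstance, τ, MonoidHom.rangeRestrict_surjective _,
      (hc.prod hσ).rangeRestrict, rfl⟩
  let pr : (ρ.prod σ).range →* G := (MonoidHom.fst G G').comp (ρ.prod σ).range.subtype
  have hsurj : Function.Surjective pr := fun g => by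
    obtain ⟨x, rfl⟩ := hρ g
    exact ⟨τ x, rfl⟩
  have hbij := (Nat.bijective_iff_surjective_and_card pr).2
    ⟨hsurj, le_antisymm hle (Nat.card_le_card_of_surjective pr hsurj)⟩
  have h1 : τ x = 1 := hbij.1 ((MonoidHom.mem_ker.1 hx : ρ x = 1).trans (map_one pr).symm)
  exact congrArg (fun z => z.1.2) h1

/-- A minimal system of generators of a `p`-group has dual characters. -/
theorem exists_dual_chars {G : Type} [Group G] [Finite G] {ι : Type} [Fintype ι] [DecidableEq ι]
    (g : ι → G) (hG : IsPGroup p G) (hgen : Subgroup.closure (Set.range g) = ⊤)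
    (hmin : Group.rank G = Fintype.card ι) :
    ∃ χ : ι → G → ZMod p, (∀ i a b, χ i (a * b) = χ i a + χ i b) ∧
      ∀ i j, χ i (g j) = Pi.single (M := fun _ => ZMod p) i 1 j := by
  classical
  have h : ∀ i, ∃ χ : G → ZMod p, (∀ a b, χ (a * b) = χ a + χ b) ∧
      ∀ j, χ (g j) = Pi.single (M := fun _ => ZMod p) i 1 j := fun i => by
    set K := Subgroup.closure (((Finset.univ.erase i).image g : Finset G) : Set G) with hK
    have hne : K ≠ ⊤ := fun h => by
      have h1 := (Group.rank_le h).trans Finset.card_image_le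
      rw [Finset.card_erase_of_mem (Finset.mem_univ i), Finset.card_univ, hmin] at h1
      have := Fintype.card_pos_iff.2 ⟨i⟩
      omega
    obtain ⟨χ, hadd, h0, x, hx⟩ := exists_char_of_ne_top hG hne
    have hoth : ∀ j, j ≠ i → χ (g j) = 0 := fun j hj => h0 _ (Subgroup.subset_closure
      (Finset.mem_coe.2 (Finset.mem_image_of_mem g
        (Finset.mem_erase.2 ⟨hj, Finset.mem_univ _⟩))))
    have hi : χ (g i) ≠ 0 := fun hi => hx (by
      have hle : Subgroup.closure (Set.range g) ≤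
          (MonoidHom.mk' (fun a => Multiplicative.ofAdd (χ a))
            fun a b => by rw [hadd, ofAdd_add]).ker := by
        rw [Subgroup.closure_le]
        rintro _ ⟨j, rfl⟩
        show Multiplicative.ofAdd (χ (g j)) = 1
        rcases eq_or_ne j i with rfl | hj
        · rw [hi, ofAdd_zero]
        · rw [hoth j hj, ofAdd_zero]
      have := hle (hgen.symm ▸ Subgroup.mem_top x)
      exact Multiplicative.ofAdd.injective (this.trans ofAdd_zero.symm))
    refine ⟨fun a => (χ (g i))⁻¹ * χ a, fun a b => by simp only [hadd, mul_add], fun j => ?_⟩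
    rcases eq_or_ne j i with rfl | hj
    · rw [Pi.single_eq_same]; exact inv_mul_cancel₀ hi
    · rw [Pi.single_eq_of_ne hj]
      show _ * χ (g j) = 0
      rw [hoth j hj, mul_zero]
  choose χ hχ hχg using h
  exact ⟨χ, hχ, hχg⟩

/-- The coordinates of an elementary central kernel. -/
theorem exists_coords_ker {F G : Type} [Group F] [Group.FG F] [Group G] [Finite G] (π : F →* G)
    (Kc : Subgroup F) [Kc.Normal] (hpow : ∀ r ∈ π.ker, r ^ p ∈ Kc)
    (hcomm : ∀ r ∈ π.ker, ∀ f, r * f * r⁻¹ * f⁻¹ ∈ Kc) :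
    ∃ (n : ℕ) (χ : π.ker →* Multiplicative (Fin n → ZMod p)), Function.Surjective χ ∧
      ∀ r : π.ker, χ r = 1 ↔ (r : F) ∈ Kc := by
  classical
  let R := π.ker
  let N : Subgroup R := Kc.subgroupOf R
  let _ : CommGroup (R ⧸ N) :=
    { (inferInstance : Group (R ⧸ N)) with
      mul_comm := fun a b => by
        induction a using QuotientGroup.induction_on with | H a => ?_
        induction b using QuotientGroup.induction_on with | H b => ?_
        rw [← QuotientGroup.mk_mul, ← QuotientGroup.mk_mul, QuotientGroup.eq]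
        show ((a * b)⁻¹ * (b * a) : R).1 ∈ Kc
        have e := hcomm _ (inv_mem b.2) (a : F)⁻¹
        rw [show ((a * b)⁻¹ * (b * a) : R).1
            = (b : F)⁻¹ * (a : F)⁻¹ * ((b : F)⁻¹)⁻¹ * ((a : F)⁻¹)⁻¹ by simp [mul_assoc]]
        exact e }
  have hQ : ∀ x : R ⧸ N, x ^ p = 1 := fun x => by
    obtain ⟨a, rfl⟩ := QuotientGroup.mk_surjective x
    rw [← QuotientGroup.mk_pow]
    exact (QuotientGroup.eq_one_iff _).2
      (Subgroup.mem_subgroupOf.2 (hpow _ a.2 : ((a : R) : F) ^ p ∈ Kc))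
  have : Finite (R ⧸ N) := by
    have : R.FiniteIndex := Subgroup.finiteIndex_ker π
    have : Group.FG R := Subgroup.fg_of_index_ne_zero R
    exact CommGroup.finite_of_fg_isMulTorsion (R ⧸ N)
      fun x => isOfFinOrder_iff_pow_eq_one.2 ⟨p, hp.out.pos, hQ x⟩
  obtain ⟨n, ⟨co⟩⟩ := exists_coords hQ
  refine ⟨n, co.toMonoidHom.comp (QuotientGroup.mk' N),
    co.surjective.comp (QuotientGroup.mk'_surjective N), fun r => ?_⟩
  rw [MonoidHom.comp_apply, MulEquiv.coe_toMonoidHom, co.map_eq_one_iff, QuotientGroup.mk'_apply,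
    QuotientGroup.eq_one_iff, Subgroup.mem_subgroupOf]

/-- **An unramified member lifts to every elementary central extension.** -/
theorem exists_lift_elementary (hp2 : p ≠ 2) {H : Subgroup GQ} (hH : H ∈ LQ.carrier)
    {F G : Type} [Group F] [Group G] [Finite G] {π : F →* G}
    (hπ : Function.Surjective π) (Kc : Subgroup F) [Kc.Normal] (hKc : Kc ≤ π.ker)
    (hcomm : ∀ r ∈ π.ker, ∀ f, r * f * r⁻¹ * f⁻¹ ∈ Kc) {n : ℕ}
    {χ : π.ker →* Multiplicative (Fin n → ZMod p)} (hχs : Function.Surjective χ)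
    (hχ : ∀ r : π.ker, χ r = 1 ↔ (r : F) ∈ Kc) {ρ : H →* G} (hρ : UnrClass p H ρ) :
    Finite (F ⧸ Kc) ∧ ∃ Φ : H →* F ⧸ Kc, LC₁ (LQ.sub H) Φ ∧
      ∀ s, QuotientGroup.lift Kc π hKc (Φ s) = ρ s := by
  classical
  let χi : Fin n → (π.ker →* Multiplicative (ZMod p)) := fun i =>
    (AddMonoidHom.toMultiplicative (Pi.evalAddMonoidHom (fun _ => ZMod p) i)).comp χ
  have hχi : ∀ i r, χi i r = Multiplicative.ofAdd (Multiplicative.toAdd (χ r) i) := fun _ _ => rfl
  have hχK : ∀ i (r : π.ker), (r : F) ∈ Kc → χi i r = 1 := fun i r hr => by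
    rw [hχi, (hχ r).2 hr]
    rfl
  have hsurj : ∀ v : Fin n → ZMod p, ∃ r, ∀ i, χi i r = Multiplicative.ofAdd (v i) := fun v => by
    obtain ⟨r, hr⟩ := hχs (Multiplicative.ofAdd v)
    exact ⟨r, fun i => by rw [hχi, hr, toAdd_ofAdd]⟩
  have hex : ∀ i, ∃ r₀, χi i r₀ ≠ 1 := fun i => by
    obtain ⟨r, hr⟩ := hsurj (Pi.single i 1)
    refine ⟨r, ?_⟩
    rw [hr, Pi.single_eq_same]
    exact fun h => one_ne_zero (Multiplicative.ofAdd.injective (h.trans ofAdd_zero.symm))
  choose r₀ hr₀ using hex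
  choose K' hK' D hK'le hKcK' hK'mem hDπ using fun i =>
    exists_cExt_of_functional hπ hKc hcomm (χi i) (hχK i) (hr₀ i)
  have hEfin : ∀ i, Finite (F ⧸ K' i) := fun i => cExt_finite (D i)
  have hlifts : ∀ i, ∃ ψ : H →* F ⧸ K' i, LC₁ (LQ.sub H) ψ ∧ ∀ s, (D i).π (ψ s) = ρ s := fun i =>
    exists_lift_sub_of_local hp2 hH (D i) hρ.lc fun q g => by
      obtain ⟨τ₀, h⟩ := exists_unr_local_lift (hloc_mem (q := (q : ℕ)) hH g) (D i).π
        (ρ.comp (locTo H (q : ℕ) g)) (hρ.lc.precomp (compat_locTo g)) (hρ.unr q g)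
      obtain ⟨e, he⟩ := (D i).surj (ρ (locTo H (q : ℕ) g τ₀))
      obtain ⟨β, h1, -, h3, -⟩ := h e he
      exact ⟨β, h1, h3⟩
  choose ψ hψc hψl using hlifts
  let pr : F →* G × ((i : Fin n) → F ⧸ K' i) :=
    π.prod (MonoidHom.pi fun i => QuotientGroup.mk' (K' i))
  have hpr : ∀ f : F, f ∈ Kc ↔ pr f = 1 := fun f => by
    refine ⟨fun h => Prod.ext (hKc h) (funext fun i => (QuotientGroup.eq_one_iff f).2 (hKcK' i h)),
      fun h => ?_⟩
    have hfR : f ∈ π.ker := congrArg Prod.fst h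
    refine (hχ ⟨f, hfR⟩).1 (Multiplicative.toAdd.injective (funext fun i => ?_))
    have h3 := (hK'mem i ⟨f, hfR⟩).1
      ((QuotientGroup.eq_one_iff f).1 (congrFun (congrArg Prod.snd h) i))
    rw [hχi] at h3
    exact Multiplicative.ofAdd.injective (h3.trans ofAdd_zero.symm)
  let θ : F ⧸ Kc →* G × ((i : Fin n) → F ⧸ K' i) :=
    QuotientGroup.lift Kc pr fun f hf => MonoidHom.mem_ker.2 ((hpr f).1 hf)
  have hθ : Function.Injective θ := (injective_iff_map_eq_one θ).2 fun x hx => by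
    obtain ⟨f, rfl⟩ := QuotientGroup.mk_surjective x
    exact (QuotientGroup.eq_one_iff f).2 ((hpr f).2 hx)
  refine ⟨Finite.of_injective θ hθ, ?_⟩
  let Ψ : H →* G × ((i : Fin n) → F ⧸ K' i) := ρ.prod (MonoidHom.pi ψ)
  have hΨ : ∀ g, ∃ x, θ x = Ψ g := fun g => by
    obtain ⟨f, hf⟩ := hπ (ρ g)
    choose fi hfi using fun i => QuotientGroup.mk_surjective ((ψ i) g)
    have hfiR : ∀ i, f⁻¹ * fi i ∈ π.ker := fun i => by
      have h1 : π (fi i) = ρ g := by
        rw [← hDπ i (fi i), QuotientGroup.mk'_apply, hfi, hψl]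
      show π (f⁻¹ * fi i) = 1
      rw [map_mul, map_inv, hf, h1, inv_mul_cancel]
    obtain ⟨r, hr⟩ := hsurj fun i => Multiplicative.toAdd (χi i ⟨_, hfiR i⟩)
    refine ⟨QuotientGroup.mk' Kc (f * r), Prod.ext ?_ (funext fun i => ?_)⟩
    · show π (f * r) = ρ g
      rw [map_mul, show π (r : F) = 1 from r.2, mul_one, hf]
    · show ((f * r : F) : F ⧸ K' i) = ψ i g
      rw [← hfi, QuotientGroup.eq]
      have h3 : (((r⁻¹ : π.ker) * ⟨_, hfiR i⟩ : π.ker) : F) ∈ K' i := (hK'mem i _).2 (by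
        rw [map_mul, map_inv, hr, ofAdd_toAdd, inv_mul_cancel])
      convert h3 using 1
      simp [mul_assoc]
  choose x hx using hΨ
  let Φ : H →* F ⧸ Kc := MonoidHom.mk' x fun a b => hθ (by rw [map_mul, hx, hx, hx, map_mul])
  have hΦ : ∀ g, θ (Φ g) = Ψ g := hx
  refine ⟨Φ, ?_, fun g => ?_⟩
  · have hlc : LC₁ (LQ.sub H) Ψ := by
      obtain ⟨N, hN, hNs⟩ := hρ.lc
      choose M hM hMs using hψc
      suffices h : ∀ t : Finset (Fin n), ∃ N' ∈ (LQ.sub H).carrier, N' ≤ N ∧ ∀ i ∈ t, N' ≤ M i by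
        obtain ⟨N', hN', h1, h2⟩ := h Finset.univ
        exact ⟨N', hN', fun g s hs => Prod.ext (hNs g s (h1 hs))
          (funext fun i => hMs i g s (h2 i (Finset.mem_univ i) hs))⟩
      intro t
      induction t using Finset.induction_on with
      | empty => exact ⟨N, hN, le_rfl, fun i hi => absurd hi (Finset.notMem_empty i)⟩
      | insert j t _ ih =>
        obtain ⟨N', hN', h1, h2⟩ := ih
        refine ⟨N' ⊓ M j, (LQ.sub H).inf_mem hN' (hM j), inf_le_left.trans h1, fun i hi => ?_⟩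
        rcases Finset.mem_insert.1 hi with rfl | hi
        · exact inf_le_right
        · exact inf_le_left.trans (h2 i hi)
    obtain ⟨N, hN, hNs⟩ := hlc
    exact ⟨N, hN, fun g s hs => hθ (by rw [hΦ, hΦ]; exact hNs g s hs)⟩
  · obtain ⟨f, hf⟩ := QuotientGroup.mk_surjective (Φ g)
    have h1 := congrArg Prod.fst (hΦ g)
    rw [← hf] at h1 ⊢
    exact h1

end Fermat.Agent.GolodCriterion
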