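import Fermat.Agent.GolodCriterion.Invariants

/-!
# Cyclic fields of prime degree with large `p`-rank

A cyclic field of degree `p` ramified at `d + 1` primes `≡ 1 (mod p)` has class group of `p`-rank at
least `d`: the characters of those primes are unramified over it.
-/

set_option autoImplicit false
set_option linter.unusedSectionVars false

noncomputable section

namespace Fermat.Agent.GolodCriterion

open FA.GalCoh ScholzReichardt NumberField Fermat.Agent.GolodShafarevich

local notation "Qb" => AlgebraicClosure ℚ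

variable {p : ℕ} [hp : Fact p.Prime]

/-- Any number of primes congruent to `1` modulo `p`. -/
theorem exists_primes_card (n : ℕ) :
    ∃ S : Finset Nat.Primes, (∀ q ∈ S, p ∣ (q : ℕ) - 1) ∧ S.card = n := by
  obtain ⟨S, hS, hcard⟩ := Set.Infinite.exists_subset_card_eq
    (s := {q : Nat.Primes | p ∣ (q : ℕ) - 1}) (fun hfin => by
      obtain ⟨l, hl, hlt, hmod⟩ := Nat.exists_prime_gt_modEq_one (k := p)
        (hfin.toFinset.sup fun q : Nat.Primes => (q : ℕ)) hp.out.ne_zero
      have hmem : (⟨l, hl⟩ : Nat.Primes) ∈ hfin.toFinset :=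
        hfin.mem_toFinset.2 ((Nat.modEq_iff_dvd' hl.one_le).1 hmod.symm)
      exact absurd (Finset.le_sup (f := fun q : Nat.Primes => (q : ℕ)) hmem) (not_le.2 hlt)) n
  exact ⟨S, fun q hq => hS hq, hcard⟩

variable {S : Finset Nat.Primes}

/-- Inertia at a prime of `S` has image on its own coordinate. -/
theorem omega_inertia_single (hS : ∀ q ∈ S, p ∣ (q : ℕ) - 1)
    {ω : GQ →* Multiplicative ({q // q ∈ S} → ZMod p)} (hωc : InClass p p S ω)
    (hω : ∀ q : {q // q ∈ S}, ∃ t ∈ inertL (q.1 : ℕ),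
      ω (loc (q.1 : ℕ) t) = Multiplicative.ofAdd (Pi.single q 1))
    (q : {q // q ∈ S}) {ι : LG (q.1 : ℕ)} (hι : ι ∈ inertL (q.1 : ℕ)) (r : {q // q ∈ S})
    (hr : r ≠ q) : Multiplicative.toAdd (ω (loc (q.1 : ℕ) ι)) r = 0 := by
  classical
  obtain ⟨s, hs⟩ := exists_isTameGen (p := p)
    (ne_of_dvd_sub_one' (N := 1) one_pos q.1.2 (by rw [pow_one]; exact hS q.1 q.2))
  have hgen := hs.2 _ ω hωc.isOpen fun η _ => hωc.pPow _
  obtain ⟨t, ht, htω⟩ := hω q
  obtain ⟨j, hj⟩ := hgen t ht
  obtain ⟨i, hi⟩ := hgen ι hι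
  rw [hi, toAdd_pow, Pi.smul_apply]
  have h1 := congrArg Multiplicative.toAdd (hj.symm.trans htω)
  rw [toAdd_pow, toAdd_ofAdd] at h1
  have h2 := congrFun h1 r
  rw [Pi.smul_apply, Pi.single_eq_of_ne hr, nsmul_eq_mul, mul_eq_zero] at h2
  rcases h2 with h2 | h2
  · have h3 := congrFun h1 q
    rw [Pi.smul_apply, Pi.single_eq_same, nsmul_eq_mul, h2, zero_mul] at h3
    exact absurd h3 zero_ne_one
  · rw [h2, smul_zero]

/-- **Cyclic fields of degree `p` with `p`-rank at least `d`.** -/
theorem exists_cyclic_large_pRank (hp2 : p ≠ 2) (d : ℕ) :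
    ∃ (C : IntermediateField ℚ Qb) (_ : FiniteDimensional ℚ C) (_ : NumberField C),
      IsGalois ℚ C ∧ Module.finrank ℚ C = p ∧ IsTotallyReal C ∧
      ∃ φ : ClassGroup (𝓞 C) →* Multiplicative (Fin d → ZMod p), Function.Surjective φ := by
  classical
  obtain ⟨S, hS, hcard⟩ := exists_primes_card (p := p) (d + 1)
  obtain ⟨ω, hωs, hωc, hω, -⟩ := exists_omega (dvd_refl p) hS
  let sum : ({q // q ∈ S} → ZMod p) →+ ZMod p :=
    { toFun := fun v => ∑ q, v q
      map_zero' := Finset.sum_const_zero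
      map_add' := fun _ _ => Finset.sum_add_distrib }
  let χ : GQ →* Multiplicative (ZMod p) := (AddMonoidHom.toMultiplicative sum).comp ω
  obtain ⟨q₀, hq₀⟩ : S.Nonempty := Finset.card_pos.1 (by omega)
  have hsum1 : ∀ q : {q // q ∈ S},
      (AddMonoidHom.toMultiplicative sum) (Multiplicative.ofAdd (Pi.single q 1))
        = Multiplicative.ofAdd 1 := fun q => by
    show Multiplicative.ofAdd (∑ r, (Pi.single q 1 : {q // q ∈ S} → ZMod p) r) = _
    rw [Finset.sum_pi_single', if_pos (Finset.mem_univ q)]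
  have hχs : Function.Surjective χ := fun v => by
    obtain ⟨g, hg⟩ := hωs (Multiplicative.ofAdd
      (Pi.single ⟨q₀, hq₀⟩ (1 : ZMod p)) ^ (Multiplicative.toAdd v).val)
    refine ⟨g, ?_⟩
    rw [MonoidHom.comp_apply, hg, map_pow, hsum1, ← ofAdd_nsmul, nsmul_one, ZMod.natCast_zmod_val,
      ofAdd_toAdd]
  have hχc : InClass p p S χ := hωc.map _
  obtain ⟨C, hC, hCg, hCd, -, hCf⟩ := hχc.exists_field hχs
  have hnf : NumberField C := { }
  refine ⟨C, hC, hnf, hCg, by rw [hCd, Nat.card_congr Multiplicative.toAdd, Nat.card_zmod],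
    isTotallyReal_of_fixed C ((hCf _).2 (hχc.complexConjugation_eq_one hp2)), ?_⟩
  -- drop one coordinate
  let e : Fin d ≃ {q : {q // q ∈ S} // q ≠ ⟨q₀, hq₀⟩} :=
    (Fintype.equivFinOfCardEq (by
      rw [Fintype.card_subtype_compl, Fintype.card_coe, hcard, Fintype.card_subtype_eq]
      omega)).symm
  let res : ({q // q ∈ S} → ZMod p) →+ (Fin d → ZMod p) :=
    { toFun := fun v i => v (e i).1
      map_zero' := rfl
      map_add' := fun _ _ => rfl }
  let f : C.fixingSubgroup →* Multiplicative (Fin d → ZMod p) :=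
    (AddMonoidHom.toMultiplicative res).comp (ω.comp C.fixingSubgroup.subtype)
  have hfs : Function.Surjective f := fun v => by
    let u : {q // q ∈ S} → ZMod p := fun q =>
      if h : q = ⟨q₀, hq₀⟩ then -∑ i, Multiplicative.toAdd v i
      else Multiplicative.toAdd v (e.symm ⟨q, h⟩)
    obtain ⟨g, hg⟩ := hωs (Multiplicative.ofAdd u)
    have hu : ∀ i, u (e i).1 = Multiplicative.toAdd v i := fun i => by
      simp only [u, dif_neg (e i).2, Subtype.coe_eta, Equiv.symm_apply_apply]
    have hsum : sum u = 0 := by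
      show ∑ q, u q = 0
      rw [← Finset.add_sum_erase _ u (Finset.mem_univ ⟨q₀, hq₀⟩)]
      have h1 : ∑ q ∈ Finset.univ.erase (⟨q₀, hq₀⟩ : {q // q ∈ S}), u q
          = ∑ i, Multiplicative.toAdd v i := by
        rw [Finset.sum_subtype (p := fun q => q ≠ ⟨q₀, hq₀⟩) _ (fun q => by simp),
          ← e.sum_comp]
        exact Finset.sum_congr rfl fun i _ => hu i
      rw [h1]
      simp [u]
    have hgC : g ∈ C.fixingSubgroup := (hCf g).2 (by
      show (AddMonoidHom.toMultiplicative sum) (ω g) = 1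
      rw [hg]
      show Multiplicative.ofAdd (sum u) = 1
      rw [hsum, ofAdd_zero])
    refine ⟨⟨g, hgC⟩, Multiplicative.toAdd.injective (funext fun i => ?_)⟩
    show Multiplicative.toAdd (ω g) (e i).1 = _
    rw [hg, toAdd_ofAdd, hu]
  refine exists_classGroup_hom_of_class hp2 C hfs ⟨?_, fun s => ⟨1, ?_⟩, fun q g τ hτ => ?_⟩
  · exact ((lc_of_isOpen ω hωc.isOpen).precomp (Levels.sub_compat LQ _)).comp
      (AddMonoidHom.toMultiplicative res)
  · refine Multiplicative.toAdd.injective (funext fun i => ?_)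
    rw [pow_one, toAdd_pow, Pi.smul_apply, nsmul_eq_mul, ZMod.natCast_self, zero_mul, toAdd_one]
    rfl
  · set σ := locTo C.fixingSubgroup (q : ℕ) g τ
    have hconj : ω (σ : GQ) = ω (loc (q : ℕ) (τ : LG (q : ℕ))) := by
      show ω (g⁻¹ * loc (q : ℕ) (τ : LG (q : ℕ)) * g) = _
      rw [map_mul, map_mul, map_inv, mul_comm, mul_inv_cancel_left]
    have hone : ω (σ : GQ) = 1 := by
      rw [hconj]
      by_cases hq : q ∈ S
      · have h0 : sum (Multiplicative.toAdd (ω (σ : GQ))) = 0 :=
          Multiplicative.ofAdd.injective (((hCf _).1 σ.2).trans ofAdd_zero.symm)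
        rw [hconj] at h0
        refine Multiplicative.toAdd.injective (funext fun r => ?_)
        rw [toAdd_one, Pi.zero_apply]
        rcases eq_or_ne r ⟨q, hq⟩ with rfl | hr
        · refine Eq.trans ?_ h0
          exact (Finset.sum_eq_single _ (fun r _ hr =>
            omega_inertia_single hS hωc hω ⟨q, hq⟩ hτ r hr)
            (fun h => absurd (Finset.mem_univ _) h)).symm
        · exact omega_inertia_single hS hωc hω ⟨q, hq⟩ hτ r hr
      · exact hωc.unr q hq _ hτ
    show (AddMonoidHom.toMultiplicative res) (ω (σ : GQ)) = 1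
    rw [hone, map_one]

end Fermat.Agent.GolodCriterion
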