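import Fermat.Agent.GolodCriterion.Classes
import Fermat.Agent.GolodShafarevich.Fields
import Fermat.Agent.ClassFieldTower.Basic

/-!
# Classes and fields

An unramified class of the group of a number field inside an algebraic closure of `ℚ` cuts out a
Galois extension unramified at every place, and such an extension gives such a class.
-/

set_option autoImplicit false
set_option linter.unusedSectionVars false

noncomputable section

namespace Fermat.Agent.GolodCriterion

open FA.GalCoh ScholzReichardt NumberField Fermat.Agent.ClassFieldTower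
open scoped Pointwise

local notation "Qb" => AlgebraicClosure ℚ

variable {p : ℕ} [hp : Fact p.Prime]

theorem fixingSubgroup_mem_LQ (F : IntermediateField ℚ Qb) [FiniteDimensional ℚ F] :
    F.fixingSubgroup ∈ LQ.carrier :=
  mem_LQ_iff_isOpen.2 F.fixingSubgroup_isOpen

/-- An unramified class restricted to a smaller subgroup. -/
theorem UnrClass.restrict {H H' : Subgroup GQ} (hle : H' ≤ H) {G : Type} [Group G] {f : H →* G}
    (h : UnrClass p H f) : UnrClass p H' (f.comp (Subgroup.inclusion hle)) where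
  lc := by
    obtain ⟨_, ⟨N, hN, rfl⟩, hs⟩ := h.lc
    exact ⟨_, ⟨N, hN, rfl⟩, fun g s hs' => by
      show f (Subgroup.inclusion hle (g * s)) = f (Subgroup.inclusion hle g)
      rw [map_mul]
      exact hs _ _ hs'⟩
  pPow s := h.pPow _
  unr q g τ hτ := h.unr q g ⟨τ, (mem_hloc H).2 (hle ((mem_hloc H').1 τ.2))⟩ hτ

variable (F : IntermediateField ℚ Qb) [FiniteDimensional ℚ F] [NumberField F]

/-- **The field of a class.** -/
theorem exists_field_of_class (hp2 : p ≠ 2) {G : Type} [Group G] [Finite G]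
    {f : F.fixingSubgroup →* G} (hfs : Function.Surjective f)
    (hf : UnrClass p F.fixingSubgroup f) :
    ∃ (M : IntermediateField F Qb) (_ : FiniteDimensional F M) (_ : NumberField M)
      (_ : IsGalois F M), Module.finrank F M = Nat.card G ∧ IsPGroup p (M ≃ₐ[F] M) ∧
      Nonempty ((M ≃ₐ[F] M) ≃* G) ∧
      UnrEverywhere F M ∧
      ∀ s : F.fixingSubgroup, (∀ x ∈ M, (s : GQ) x = x) → f s = 1 := by
  have : IsGalois F Qb := IsGalois.tower_top_of_isGalois ℚ F Qb
  let e := IntermediateField.fixingSubgroupEquiv F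
  let θ : (Qb ≃ₐ[F] Qb) →* G := f.comp e.symm.toMonoidHom
  have hθ : ∀ s, θ (e s) = f s := fun s => congrArg f (e.symm_apply_apply s)
  have hopen : IsOpen (θ.ker : Set (Qb ≃ₐ[F] Qb)) := by
    obtain ⟨_, ⟨N, ⟨L, hL, hLN⟩, rfl⟩, hs⟩ := hf.lc
    let E : IntermediateField F Qb :=
      IntermediateField.extendScalars (le_sup_left : F ≤ F ⊔ L)
    have hEQ : FiniteDimensional ℚ E :=
      (inferInstance : FiniteDimensional ℚ (F ⊔ L : IntermediateField ℚ Qb))
    have : FiniteDimensional F E := Module.Finite.of_restrictScalars_finite ℚ F E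
    refine Subgroup.isOpen_mono (fun σ hσ => MonoidHom.mem_ker.2 ?_)
      (IntermediateField.fixingSubgroup_isOpen E)
    have hmem : ((e.symm σ : F.fixingSubgroup) : GQ) ∈ N :=
      hLN ((IntermediateField.mem_fixingSubgroup_iff _ _).2 fun x hx =>
        (IntermediateField.mem_fixingSubgroup_iff E σ).1 hσ x ((le_sup_right : L ≤ F ⊔ L) hx))
    have h := hs 1 (e.symm σ) (Subgroup.mem_subgroupOf.2 hmem)
    rwa [one_mul, map_one] at h
  let H : ClosedSubgroup (Qb ≃ₐ[F] Qb) := ⟨θ.ker, Subgroup.isClosed_of_isOpen _ hopen⟩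
  have : H.Normal := θ.normal_ker
  set M : IntermediateField F Qb := IntermediateField.fixedField H.1
  obtain ⟨hMf, hMg⟩ :=
    (InfiniteGalois.isOpen_and_normal_iff_finite_and_isGalois M).mp
      (by rw [InfiniteGalois.fixingSubgroup_fixedField H]; exact ⟨hopen, θ.normal_ker⟩)
  have : NumberField M := NumberField.of_module_finite F M
  have hθs : Function.Surjective θ := hfs.comp e.symm.surjective
  let eM : (M ≃ₐ[F] M) ≃* G := (InfiniteGalois.normalAutEquivQuotient H).symm.trans
    (QuotientGroup.quotientKerEquivOfSurjective θ hθs)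
  have hdeg : Module.finrank F M = Nat.card G := by
    rw [← IsGalois.card_aut_eq_finrank F M, Nat.card_congr eM.toEquiv]
  have hP : IsPGroup p (M ≃ₐ[F] M) := (hf.isPGroup hfs).of_equiv eM.symm
  have hfix : ∀ s : F.fixingSubgroup, f s = 1 → ∀ x ∈ M, (s : GQ) x = x := fun s hs x hx =>
    (IntermediateField.mem_fixedField_iff _ _).1 hx (e s) ((hθ s).trans hs)
  have hU : FA.ClassField94.UnramifiedPrimes F M :=
    Fermat.Agent.GolodShafarevich.unramifiedPrimes_of_inertia F M fun q hq A hA g hgI hgF => by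
      have : Fact q.Prime := ⟨hq⟩
      obtain ⟨τ, t, ht, rfl⟩ := exists_conj_inertL hA hgI
      have hmem : t ∈ hloc F.fixingSubgroup q τ⁻¹ :=
        (mem_hloc _).2 (by rw [inv_inv]; exact hgF)
      have h1 := hf.unr ⟨q, hq⟩ τ⁻¹ ⟨t, hmem⟩ ht
      refine hfix ⟨_, hgF⟩ (Eq.trans (congrArg f (Subtype.ext ?_)) h1)
      show τ * loc q t * τ⁻¹ = τ⁻¹⁻¹ * loc q t * τ⁻¹
      rw [inv_inv]
  have hinf : IsUnramifiedAtInfinitePlaces F M := by
    refine IsUnramifiedAtInfinitePlaces_of_odd_finrank ?_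
    obtain ⟨k, hk⟩ := IsPGroup.iff_card.1 hP
    rw [← IsGalois.card_aut_eq_finrank F M, hk]
    exact (hp.out.odd_of_ne_two hp2).pow
  refine ⟨M, hMf, inferInstance, hMg, hdeg, hP, ⟨eM⟩, ⟨hU, hinf⟩, fun s hs => ?_⟩
  have h : e s ∈ θ.ker := by
    rw [show θ.ker = M.fixingSubgroup from (InfiniteGalois.fixingSubgroup_fixedField H).symm]
    exact (IntermediateField.mem_fixingSubgroup_iff _ _).2 hs
  exact (hθ s).symm.trans h

/-- **The class of a field.** -/
theorem exists_class_of_field (L : Type) [Field L] [NumberField L] [Algebra F L] [IsGalois F L]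
    (hu : FA.ClassField94.UnramifiedPrimes F L) :
    ∃ (i : L →ₐ[F] Qb) (r : F.fixingSubgroup →* (L ≃ₐ[F] L)), Function.Surjective r ∧
      LC₁ (LQ.sub F.fixingSubgroup) r ∧
      (∀ (q : Nat.Primes) (g : GQ) (τ : hloc F.fixingSubgroup (q : ℕ) g),
        (τ : LG (q : ℕ)) ∈ inertL (q : ℕ) → r (locTo F.fixingSubgroup (q : ℕ) g τ) = 1) ∧
      ∀ (s : F.fixingSubgroup) (y : L), i (r s y) = (s : GQ) (i y) := by
  have : IsGalois F Qb := IsGalois.tower_top_of_isGalois ℚ F Qb
  have : FiniteDimensional F L := Module.Finite.of_restrictScalars_finite ℚ F L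
  have : Normal F L := IsGalois.to_normal
  let i : L →ₐ[F] Qb := IsAlgClosed.lift
  let _ : Algebra L Qb := i.toRingHom.toAlgebra
  have : IsScalarTower F L Qb := IsScalarTower.of_algebraMap_eq fun x => (i.commutes x).symm
  have : Normal F Qb := IsGalois.to_normal
  let e := IntermediateField.fixingSubgroupEquiv F
  let r : F.fixingSubgroup →* (L ≃ₐ[F] L) :=
    (AlgEquiv.restrictNormalHom L).comp e.toMonoidHom
  have hr : ∀ (s : F.fixingSubgroup) (y : L), i (r s y) = (s : GQ) (i y) := fun s y =>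
    (e s).restrictNormal_commutes L y
  refine ⟨i, r, (AlgEquiv.restrictNormalHom_surjective Qb).comp e.surjective, ?_, ?_, hr⟩
  · have hfin : FiniteDimensional ℚ i.fieldRange := by
      have : FiniteDimensional F i.fieldRange :=
        (AlgEquiv.ofInjectiveField i).toLinearEquiv.finiteDimensional
      exact Module.Finite.trans F i.fieldRange
    let E : IntermediateField ℚ Qb := i.fieldRange.restrictScalars ℚ
    have : FiniteDimensional ℚ E := hfin
    refine ⟨_, ⟨E.fixingSubgroup, fixingSubgroup_mem_LQ E, rfl⟩, fun g s hs => ?_⟩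
    rw [map_mul, show r s = 1 from AlgEquiv.ext fun y => i.injective ((hr s y).trans
      ((IntermediateField.mem_fixingSubgroup_iff _ _).1 (Subgroup.mem_subgroupOf.1 hs) _
        ⟨y, rfl⟩)), mul_one]
  intro q g τ hτ
  have hq : Fact (q : ℕ).Prime := ⟨q.2⟩
  set σ := locTo F.fixingSubgroup (q : ℕ) g τ
  set A : ValuationSubring Qb := g⁻¹ • padicPlace (q : ℕ)
  have hA : A.LiesOverPrime (q : ℕ) :=
    FA.Density.liesOverPrime_smul (liesOverPrime_padicPlace _) g⁻¹
  have hσ : (σ : GQ) ∈ A.inertiaSubgroupIn ℚ := by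
    have h := FA.TW.conj_mem_inertia q.2 (liesOverPrime_padicPlace (q : ℕ)) hτ g⁻¹
    rwa [inv_inv] at h
  let ι : 𝓞 L →+* FA.Deform.ZBar :=
    (i.toRingHom.comp (algebraMap (𝓞 L) L)).codRestrict (integralClosure ℤ Qb).toSubring fun x =>
      (map_isIntegral_int i.toRingHom (RingOfIntegers.isIntegral_coe x) :)
  let P : Ideal (𝓞 L) := (FA.Deform.primeAt A).comap ι
  have hqP : ((q : ℕ) : 𝓞 L) ∈ P := by
    show ι ((q : ℕ) : 𝓞 L) ∈ FA.Deform.primeAt A
    rw [map_natCast, FA.Deform.mem_primeAt]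
    exact hA
  have hP : P.IsPrime := Ideal.comap_isPrime _ _
  have hP0 : P ≠ ⊥ := fun h => by
    rw [h, Ideal.mem_bot] at hqP
    exact q.2.ne_zero (by exact_mod_cast hqP)
  have h1 : r σ ∈ P.inertia (L ≃ₐ[F] L) := fun y => by
    show ι (r σ • y - y) ∈ FA.Deform.primeAt A
    rw [FA.Deform.mem_primeAt, A.mem_nonunits_iff]
    have e : ((ι (r σ • y - y) : FA.Deform.ZBar) : Qb) = (σ : GQ) (i (y : L)) - i (y : L) := by
      show i (algebraMap (𝓞 L) L (r σ • y - y)) = _
      rw [map_sub, map_sub, ← hr]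
      rfl
    rw [e]
    exact (FA.Local.inert_of_mem_inertiaSubgroupIn A hσ).sub_lt _ ((A.valuation_le_one_iff _).mpr
      (FA.Deform.zbar_mem_valuationSubring A (ι y)))
  rwa [ClassFieldTower.inertia_eq_bot hu P hP hP0, Subgroup.mem_bot] at h1

end Fermat.Agent.GolodCriterion
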