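import Fermat.Agent.GolodCriterion.Classes
import Fermat.Agent.GalCoh.PermVec

/-!
# The Hasse principle for central embedding problems over a number field

For odd `p` a central embedding problem with kernel of order `p` over a number field is soluble as
soon as it is soluble at every finite place: the obstruction dies over the field with the roots of
unity, whose degree is prime to `p`.
-/

set_option autoImplicit false
set_option linter.unusedSectionVars false

noncomputable section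

namespace Fermat.Agent.GolodCriterion

open FA.GalCoh ScholzReichardt

variable {p : ℕ} [hp : Fact p.Prime]

/-- **The obstruction over a number field.** -/
theorem exists_obstruction_sub {H : Subgroup GQ} {E G : Type} [Group E] [Group G]
    (D : CExt p E G) {f : H →* G} (hf : LC₁ (LQ.sub H) f)
    (hlocal : ∀ (q : Nat.Primes) (g : GQ), ∃ β : hloc H (q : ℕ) g →* E,
      LC₁ ((LL (q : ℕ)).sub (hloc H (q : ℕ) g)) β ∧
        ∀ τ, D.π (β τ) = f (locTo H (q : ℕ) g τ)) :
    ∃ Z : ↥(Z2 (LQ.sub H) (triv H p)),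
      (∀ (H' : Subgroup GQ) (hle : H' ≤ H)
        (hc : Compat (LQ.sub H) (LQ.sub H') (Subgroup.inclusion hle)),
        LocTriv2 H' (res2t (p := p) hc (mk2 (LQ.sub H) (triv H p) Z))) ∧
      (mk2 (LQ.sub H) (triv H p) Z = 0 →
        ∃ ψ : H →* E, LC₁ (LQ.sub H) ψ ∧ ∀ s, D.π (ψ s) = f s) := by
  classical
  let s : G → E := Function.surjInv D.surj
  have hs : ∀ g, D.π (s g) = g := Function.surjInv_eq D.surj
  have hc0 : ∀ g h, D.π (s (f g) * s (f h) * (s (f (g * h)))⁻¹) = 1 := fun g h => by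
    rw [map_mul, map_mul, map_inv, hs, hs, hs, map_mul, mul_inv_cancel]
  choose c hc using fun x : H × H => D.exists_ja (hc0 x.1 x.2)
  have hmul : ∀ g h, s (f g) * s (f h) = D.ja (c (g, h)) * s (f (g * h)) := fun g h => by
    rw [hc (g, h), inv_mul_cancel_right]
  obtain ⟨N, hN, hNs⟩ := id hf
  have hfN : ∀ u ∈ N, f u = 1 := fun u hu => by
    have h := hNs 1 u hu
    rwa [one_mul, map_one] at h
  have hclc : LC₂ (LQ.sub H) c := ⟨N, hN, fun g g' u u' hu hu' => D.ja_injective (by
    rw [hc, hc]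
    simp only [map_mul, hfN u hu, hfN u' hu', mul_one])⟩
  have hcoc : ∀ g h k, c (g * h, k) + c (g, h) = c (h, k) + c (g, h * k) := fun g h k => by
    refine D.ja_injective (mul_right_cancel (b := s (f (g * (h * k)))) ?_)
    rw [D.ja_add, D.ja_add]
    calc D.ja (c (g * h, k)) * D.ja (c (g, h)) * s (f (g * (h * k)))
        = D.ja (c (g, h)) * (D.ja (c (g * h, k)) * s (f (g * h * k))) := by
          rw [D.ja_comm, mul_assoc g h k, mul_assoc]
      _ = D.ja (c (g, h)) * s (f (g * h)) * s (f k) := by rw [← hmul, ← mul_assoc]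
      _ = s (f g) * (s (f h) * s (f k)) := by rw [← hmul, mul_assoc]
      _ = s (f g) * D.ja (c (h, k)) * s (f (h * k)) := by rw [hmul, mul_assoc]
      _ = D.ja (c (h, k)) * (D.ja (c (g, h * k)) * s (f (g * (h * k)))) := by
          rw [← D.ja_comm, mul_assoc, hmul]
      _ = _ := by rw [mul_assoc]
  let Z : ↥(Z2 (LQ.sub H) (triv H p)) := ⟨c, hclc, fun g h k => hcoc g h k⟩
  refine ⟨Z, fun H' hle hcomp q hq g => ?_, fun hZ0 => ?_⟩
  · obtain ⟨β, hβlc, hβ⟩ : ∃ β : hloc H q g →* E, LC₁ ((LL q).sub (hloc H q g)) β ∧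
        ∀ τ, D.π (β τ) = f (locTo H q g τ) := hlocal ⟨q, hq.out⟩ g
    have hle' : hloc H' q g ≤ hloc H q g := fun τ hτ =>
      (mem_hloc H).2 (hle ((mem_hloc H').1 hτ))
    let i := Subgroup.inclusion hle'
    let w : hloc H' q g → H := fun τ => locTo H q g (i τ)
    have hb0 : ∀ τ : hloc H' q g, D.π (β (i τ) * (s (f (w τ)))⁻¹) = 1 := fun τ => by
      rw [map_mul, map_inv, hs, hβ, mul_inv_cancel]
    choose a ha using fun τ => D.exists_ja (hb0 τ)
    refine (mk2_eq_zero _ _ _).2 ⟨fun τ => -a τ, ?_, funext fun x => ?_⟩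
    · obtain ⟨_, ⟨M, hM, rfl⟩, hMs⟩ := hβlc
      obtain ⟨_, ⟨M', hM', rfl⟩, hM's⟩ := hf.precomp (compat_locTo (H := H) (q := q) g)
      refine ⟨_, ⟨M ⊓ M', (LL q).inf_mem hM hM', rfl⟩, fun τ u hu => ?_⟩
      refine congrArg Neg.neg (D.ja_injective ?_)
      rw [ha, ha]
      obtain ⟨hu1, hu2⟩ : (u : LG q) ∈ M ∧ (u : LG q) ∈ M' := hu
      have h1 : β (i (τ * u)) = β (i τ) := by
        rw [map_mul i]
        exact hMs (i τ) (i u) hu1
      have h2 : f (w (τ * u)) = f (w τ) := by
        show f (locTo H q g (i (τ * u))) = f (locTo H q g (i τ))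
        rw [map_mul i]
        exact hM's (i τ) (i u) hu2
      rw [h1, h2]
    · show -a x.2 - -a (x.1 * x.2) + -a x.1 = c (w x.1, w x.2)
      have h12 : w (x.1 * x.2) = w x.1 * w x.2 := by simp only [w, map_mul]
      have e : a (x.1 * x.2) = a x.1 + a x.2 + c (w x.1, w x.2) := by
        refine D.ja_injective (mul_right_cancel (b := s (f (w x.1 * w x.2))) ?_)
        have e1 : β (i x.1) = D.ja (a x.1) * s (f (w x.1)) := by rw [ha, inv_mul_cancel_right]
        have e2 : β (i x.2) = D.ja (a x.2) * s (f (w x.2)) := by rw [ha, inv_mul_cancel_right]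
        calc D.ja (a (x.1 * x.2)) * s (f (w x.1 * w x.2)) = β (i (x.1 * x.2)) := by
              rw [ha, h12, inv_mul_cancel_right]
          _ = D.ja (a x.1) * (s (f (w x.1)) * D.ja (a x.2)) * s (f (w x.2)) := by
              rw [map_mul i, map_mul β, e1, e2]; group
          _ = D.ja (a x.1) * D.ja (a x.2) * (s (f (w x.1)) * s (f (w x.2))) := by
              rw [← D.ja_comm]; group
          _ = D.ja (a x.1 + a x.2 + c (w x.1, w x.2)) * s (f (w x.1 * w x.2)) := by
              rw [hmul, D.ja_add, D.ja_add]; group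
      rw [e]
      abel
  obtain ⟨b, hblc, hb⟩ := (mk2_eq_zero _ _ Z).1 hZ0
  have hb' : ∀ g h, c (g, h) = b h - b (g * h) + b g := fun g h => (congrFun hb (g, h)).symm
  let ψ : H →* E := MonoidHom.mk' (fun g => D.ja (-b g) * s (f g)) fun g h => by
    calc D.ja (-b (g * h)) * s (f (g * h))
        = D.ja (-b g + -b h) * (D.ja (c (g, h)) * s (f (g * h))) := by
          rw [← mul_assoc, ← D.ja_add, hb']
          congr 2
          abel
      _ = D.ja (-b g) * (D.ja (-b h) * s (f g)) * s (f h) := by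
          rw [← hmul, D.ja_add]; group
      _ = _ := by rw [D.ja_comm (-b h)]; group
  refine ⟨ψ, hblc.map₂ hf fun u v => D.ja (-u) * s v, fun g => ?_⟩
  show D.π (D.ja (-b g) * s (f g)) = f g
  rw [map_mul, D.π_ja, one_mul, hs]

/-- **The Hasse principle**: a lift exists as soon as it exists at every finite place. -/
theorem exists_lift_sub_of_local (hp2 : p ≠ 2) {H : Subgroup GQ} (hH : H ∈ LQ.carrier)
    {E G : Type} [Group E] [Group G] (D : CExt p E G) {f : H →* G} (hf : LC₁ (LQ.sub H) f)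
    (hlocal : ∀ (q : Nat.Primes) (g : GQ), ∃ β : hloc H (q : ℕ) g →* E,
      LC₁ ((LL (q : ℕ)).sub (hloc H (q : ℕ) g)) β ∧
        ∀ τ, D.π (β τ) = f (locTo H (q : ℕ) g τ)) :
    ∃ ψ : H →* E, LC₁ (LQ.sub H) ψ ∧ ∀ s, D.π (ψ s) = f s := by
  classical
  obtain ⟨Z, hloc', hlift⟩ := exists_obstruction_sub D hf hlocal
  -- the field with the roots of unity
  let χH : H →* (ZMod p)ˣ := (ExtCitation.cycloChar p).comp H.subtype
  set H' : Subgroup GQ := H ⊓ (ExtCitation.cycloChar p).ker
  have hle : H' ≤ H := inf_le_left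
  have hμ : ∀ h ∈ H', ExtCitation.cycloChar p h = 1 := fun h hh => hh.2
  have hK : (ExtCitation.cycloChar p).ker ∈ LQ.carrier := by
    obtain ⟨M, ⟨F, hF, hle⟩, h⟩ := (smooth_chr_iff _).1 (cycQ p).smooth_chr
    exact ⟨F, hF, fun g hg => h g (hle hg)⟩
  have hH' : H' ∈ LQ.carrier := LQ.inf_mem hH hK
  have hcomp : Compat (LQ.sub H) (LQ.sub H') (Subgroup.inclusion hle) := by
    rintro _ ⟨M, hM, rfl⟩
    exact ⟨_, ⟨M, hM, rfl⟩, fun g hg => hg⟩
  have hzero : res2t hcomp (mk2 (LQ.sub H) (triv H p) Z) = 0 :=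
    hasse_H2 hH' (tc_of_cyclo hp2 hμ) ((cycQ p).kumData H' hμ) (hloc' H' hle hcomp)
  -- restriction is injective
  have hL : H'.subgroupOf H ∈ (LQ.sub H).carrier := ⟨H', hH', rfl⟩
  have hker : H'.subgroupOf H = χH.ker := by
    ext g
    exact ⟨fun h => h.2, fun h => ⟨g.2, h⟩⟩
  have hn : (H'.subgroupOf H).Normal := hker ▸ MonoidHom.normal_ker _
  have := (LQ.sub H).finiteIndex hL
  let _ : Fintype (H ⧸ H'.subgroupOf H) := Fintype.ofFinite _
  let T := cosetTrans (LQ.sub H) (H'.subgroupOf H) hL hn le_rfl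
  have hcard : (Fintype.card (H ⧸ H'.subgroupOf H) : ZMod p) ≠ 0 := fun h => by
    rw [ZMod.natCast_eq_zero_iff, Fintype.card_eq_nat_card, ← Subgroup.index_eq_card, hker,
      Subgroup.index_ker] at h
    have h' := h.trans (Subgroup.card_subgroup_dvd_card χH.range)
    rw [Nat.card_eq_fintype_card, ZMod.card_units] at h'
    have := Nat.le_of_dvd (by have := hp.out.one_lt; omega) h'
    have := hp.out.pos
    omega
  refine hlift (res2_injective_of_card T hcard (Eq.trans ?_ (map_zero _).symm))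
  let i : T.H →* H' := MonoidHom.mk' (fun g => ⟨((g : H) : GQ),
    (mem_cosetTrans_H hL hn le_rfl).1 g.2⟩) fun _ _ => rfl
  have hi : Compat (LQ.sub H') ((LQ.sub H).sub T.H) i := by
    rintro _ ⟨M, hM, rfl⟩
    exact ⟨_, ⟨_, ⟨M, hM, rfl⟩, rfl⟩, fun g hg => hg⟩
  have h0 := congrArg (res2t (p := p) hi) hzero
  rw [map_zero] at h0
  rw [← h0]
  rfl

end Fermat.Agent.GolodCriterion
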