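import Fermat.Agent.GolodCriterion.NumberField
import Fermat.Agent.ClassFieldTower.PPart

/-!
# The invariants in the criterion

The `p`-rank of the class group in terms of the `p`-torsion, the equality with the number of
generators, and the unit rank and roots of unity of small fields.
-/

set_option autoImplicit false
set_option linter.unusedSectionVars false

noncomputable section

namespace Fermat.Agent.GolodCriterion

open FA.GalCoh NumberField Fermat.Agent.ClassFieldTower

variable {p : ℕ} [hp : Fact p.Prime]

/-- The index of the `p`-th powers is the order of the `p`-torsion. -/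
theorem index_range_pow {C : Type*} [CommGroup C] [Finite C] (n : ℕ) :
    (powMonoidHom n : C →* C).range.index = Nat.card (powMonoidHom n : C →* C).ker := by
  have h1 := Subgroup.card_mul_index (powMonoidHom n : C →* C).range
  have h2 := Subgroup.card_mul_index (powMonoidHom n : C →* C).ker
  rw [Subgroup.index_ker, mul_comm] at h2
  exact Nat.eq_of_mul_eq_mul_left (Nat.card_pos (α := (powMonoidHom n : C →* C).range))
    (h1.trans h2.symm)

/-- `p`-rank at least `d`: a surjection onto `(ℤ/p)^d`. -/
theorem exists_surjective_of_le_card_ker {C : Type} [CommGroup C] [Finite C] {d : ℕ}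
    (h : p ^ d ≤ Nat.card (powMonoidHom p : C →* C).ker) :
    ∃ φ : C →* Multiplicative (Fin d → ZMod p), Function.Surjective φ := by
  set R := (powMonoidHom p : C →* C).range
  obtain ⟨n, ⟨co⟩⟩ := GolodShafarevich.exists_coords (p := p) (Q := C ⧸ R) fun x => by
    obtain ⟨c, rfl⟩ := QuotientGroup.mk_surjective x
    rw [← QuotientGroup.mk_pow, QuotientGroup.eq_one_iff]
    exact ⟨c, rfl⟩
  have hn : d ≤ n := by
    refine (Nat.pow_le_pow_iff_right hp.out.one_lt).1 (h.trans_eq ?_)
    rw [← index_range_pow, Subgroup.index_eq_card, Nat.card_congr co.toEquiv,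
      Nat.card_congr Multiplicative.toAdd, Nat.card_pi]
    simp
  let res : (Fin n → ZMod p) →+ (Fin d → ZMod p) :=
    { toFun := fun v i => v (Fin.castLE hn i)
      map_zero' := rfl
      map_add' := fun _ _ => rfl }
  refine ⟨(AddMonoidHom.toMultiplicative res).comp (co.toMonoidHom.comp (QuotientGroup.mk' R)),
    fun v => ?_⟩
  let w : Fin n → ZMod p := fun j =>
    if hj : (j : ℕ) < d then Multiplicative.toAdd v ⟨j, hj⟩ else 0
  obtain ⟨c, hc⟩ := QuotientGroup.mk_surjective (co.symm (Multiplicative.ofAdd w))
  refine ⟨c, Multiplicative.toAdd.injective (funext fun i => ?_)⟩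
  show Multiplicative.toAdd (co (c : C ⧸ R)) (Fin.castLE hn i) = _
  rw [hc, MulEquiv.apply_symm_apply, toAdd_ofAdd]
  exact dif_pos i.2

/-- A surjection onto `(ℤ/p)^d` bounds the `p`-torsion below. -/
theorem le_card_ker_of_surjective {C : Type} [CommGroup C] [Finite C] {d : ℕ}
    {φ : C →* Multiplicative (Fin d → ZMod p)} (hφ : Function.Surjective φ) :
    p ^ d ≤ Nat.card (powMonoidHom p : C →* C).ker := by
  have hle : (powMonoidHom p : C →* C).range ≤ φ.ker := by
    rintro _ ⟨c, rfl⟩
    refine MonoidHom.mem_ker.2 (Multiplicative.toAdd.injective (funext fun i => ?_))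
    rw [powMonoidHom_apply, map_pow, toAdd_pow, Pi.smul_apply, nsmul_eq_mul, ZMod.natCast_self,
      zero_mul]
    rfl
  have hidx : φ.ker.index = p ^ d := by
    rw [Subgroup.index_ker, MonoidHom.range_eq_top.2 hφ, Subgroup.card_top,
      Nat.card_congr Multiplicative.toAdd, Nat.card_pi]
    simp
  rw [← index_range_pow, ← hidx]
  exact Nat.le_of_dvd (Nat.pos_of_ne_zero Subgroup.FiniteIndex.index_ne_zero)
    (Subgroup.index_dvd_of_le hle)

/-- **The generators come from the class group**: an unramified class onto `(ℤ/p)^d` makes the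
class group map onto it. -/
theorem exists_classGroup_hom_of_class (hp2 : p ≠ 2)
    (F : IntermediateField ℚ (AlgebraicClosure ℚ)) [FiniteDimensional ℚ F] [NumberField F] {d : ℕ}
    {f : F.fixingSubgroup →* Multiplicative (Fin d → ZMod p)} (hfs : Function.Surjective f)
    (hf : UnrClass p F.fixingSubgroup f) :
    ∃ φ : ClassGroup (𝓞 F) →* Multiplicative (Fin d → ZMod p), Function.Surjective φ := by
  obtain ⟨M, _, _, _, -, -, ⟨e⟩, hu, -⟩ := exists_field_of_class F hp2 hfs hf
  obtain ⟨g, hg⟩ := exists_classGroup_surjective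
    (fun a b => e.injective (by rw [map_mul, map_mul, mul_comm])) hu
  exact ⟨e.toMonoidHom.comp g, e.surjective.comp hg⟩

variable {K : Type} [Field K] [NumberField K]

/-- A field with a real place has no roots of unity of odd prime order. -/
theorem rootsDelta_eq_zero_of_real (hp2 : p ≠ 2) {w : InfinitePlace K} (hw : w.IsReal) :
    rootsDelta p K = 0 := by
  classical
  rw [rootsDelta, if_neg]
  rintro ⟨ζ, hζ⟩
  have h := hζ.map_of_injective (f := InfinitePlace.embedding_of_isReal hw) (RingHom.injective _)
  have h1 : InfinitePlace.embedding_of_isReal hw ζ = 1 :=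
    (hp.out.odd_of_ne_two hp2).pow_injective (by
      show _ ^ p = (1 : ℝ) ^ p
      rw [h.pow_eq_one, one_pow])
  exact h.ne_one hp.out.one_lt h1

/-- A quadratic field with non-trivial class group has no roots of unity of odd prime order. -/
theorem rootsDelta_eq_zero_of_quadratic (hp2 : p ≠ 2) (h2 : Module.finrank ℚ K = 2)
    (hh : classNumber K ≠ 1) : rootsDelta p K = 0 := by
  classical
  rw [rootsDelta, if_neg]
  rintro ⟨ζ, hζ⟩
  have hint : IsIntegral ℚ ζ := Algebra.IsIntegral.isIntegral ζ
  have hdeg : (minpoly ℚ ζ).natDegree = Nat.totient p := by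
    rw [← Polynomial.cyclotomic_eq_minpoly_rat hζ hp.out.pos, Polynomial.natDegree_cyclotomic]
  rw [Nat.totient_prime hp.out] at hdeg
  have hle := minpoly.natDegree_le (A := ℚ) ζ
  rw [hdeg, h2] at hle
  obtain rfl : p = 3 := by
    have h0 := hp.out.two_le
    omega
  have htop : IntermediateField.adjoin ℚ {ζ} = ⊤ := by
    refine IntermediateField.eq_of_le_of_finrank_eq le_top ?_
    rw [IntermediateField.adjoin.finrank hint, hdeg, IntermediateField.finrank_top', h2]
  have hcyc : IsCyclotomicExtension {3} ℚ K := by
    have hadj : Algebra.adjoin ℚ ({ζ} : Set K) = ⊤ := by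
      rw [← IntermediateField.adjoin_simple_toSubalgebra_of_isAlgebraic
        (Algebra.IsAlgebraic.isAlgebraic ζ), htop, IntermediateField.top_toSubalgebra]
    refine (IsCyclotomicExtension.iff_singleton 3 ℚ K).2 ⟨⟨ζ, hζ⟩, fun x => ?_⟩
    exact Algebra.adjoin_mono (fun y hy => by
      rw [Set.mem_singleton_iff.1 hy]
      exact hζ.pow_eq_one) (hadj ▸ Algebra.mem_top)
  have := IsCyclotomicExtension.Rat.three_pid K
  exact hh ((classNumber_eq_one_iff (K := K)).2 inferInstance)

/-- The unit rank of an imaginary quadratic field. -/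
theorem unitRank_imaginaryQuadratic (h2 : Module.finrank ℚ K = 2) [IsTotallyComplex K] :
    Units.rank K = 0 := by
  have h := InfinitePlace.card_add_two_mul_card_eq_rank K
  rw [nrRealPlaces_eq_zero_iff.2 inferInstance, h2] at h
  rw [Units.rank, InfinitePlace.card_eq_nrRealPlaces_add_nrComplexPlaces,
    nrRealPlaces_eq_zero_iff.2 inferInstance]
  omega

/-- The unit rank of a totally real field. -/
theorem unitRank_totallyReal [IsTotallyReal K] : Units.rank K = Module.finrank ℚ K - 1 := by
  have h := InfinitePlace.card_add_two_mul_card_eq_rank K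
  rw [nrComplexPlaces_eq_zero_iff.2 inferInstance] at h
  rw [Units.rank, InfinitePlace.card_eq_nrRealPlaces_add_nrComplexPlaces,
    nrComplexPlaces_eq_zero_iff.2 inferInstance]
  omega

/-- The unit rank is below the degree. -/
theorem unitRank_lt_finrank : Units.rank K < Module.finrank ℚ K := by
  have h := InfinitePlace.card_add_two_mul_card_eq_rank K
  have hpos : 0 < Fintype.card (InfinitePlace K) := Fintype.card_pos
  rw [Units.rank]
  rw [InfinitePlace.card_eq_nrRealPlaces_add_nrComplexPlaces] at hpos ⊢
  omega

end Fermat.Agent.GolodCriterion
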