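import Fermat.Agent.GolodCriterion.Criterion
import Fermat.Agent.GolodCriterion.Fields
import Fermat.Agent.ClassFieldTower.Tower

/-!
# The criterion for number fields

Shafarevich's bound and the criterion of Golod and Shafarevich for an abstract number field, through
an embedding in an algebraic closure of `ℚ`.
-/

set_option autoImplicit false
set_option linter.unusedSectionVars false

noncomputable section

namespace Fermat.Agent.GolodCriterion

open FA.GalCoh ScholzReichardt NumberField Fermat.Agent.ClassFieldTower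

local notation "Qb" => AlgebraicClosure ℚ

open Classical in
/-- `δ`: one if `K` contains the `p`-th roots of unity, zero otherwise. -/
def rootsDelta (p : ℕ) (K : Type) [Field K] : ℕ := if ∃ ζ : K, IsPrimitiveRoot ζ p then 1 else 0

theorem rootsDelta_le_one (p : ℕ) (K : Type) [Field K] : rootsDelta p K ≤ 1 := by
  unfold rootsDelta
  split_ifs <;> omega

variable {p : ℕ} [hp : Fact p.Prime]

theorem rootsDelta_congr {K F : Type} [Field K] [Field F] (e : K ≃+* F) :
    rootsDelta p K = rootsDelta p F := by
  classical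
  have h : (∃ ζ : K, IsPrimitiveRoot ζ p) ↔ ∃ ζ : F, IsPrimitiveRoot ζ p :=
    ⟨fun ⟨ζ, h⟩ => ⟨e ζ, h.map_of_injective e.injective⟩,
      fun ⟨ζ, h⟩ => ⟨e.symm ζ, h.map_of_injective e.symm.injective⟩⟩
  simp only [rootsDelta, h]

theorem unitRank_congr {K F : Type} [Field K] [NumberField K] [Field F] [NumberField F]
    (e : K ≃+* F) : Units.rank K = Units.rank F := by
  rw [Units.rank, Units.rank]
  refine congrArg (· - 1) (Fintype.card_congr
    { toFun := fun w => w.comap e.symm.toRingHom
      invFun := fun w => w.comap e.toRingHom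
      left_inv := fun w => InfinitePlace.ext _ _ fun x => by
        show w (e.symm (e x)) = w x
        rw [e.symm_apply_apply]
      right_inv := fun w => InfinitePlace.ext _ _ fun x => by
        show w (e (e.symm x)) = w x
        rw [e.apply_symm_apply] })

/-- The setting of an embedded field: the cosets, the places and the roots of unity. -/
theorem exists_setting (F : IntermediateField ℚ Qb) [FiniteDimensional ℚ F] [NumberField F] :
    ∃ (X : Type) (_ : Fintype X) (_ : MulAction GQ X) (T : Trans LQ X)
      (pl : X → InfinitePlace F), T.H = F.fixingSubgroup ∧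
      (∀ a b, pl a = pl b → b = a ∨ b = complexConjugation • a) ∧
      ((∀ s ∈ T.H, ExtCitation.cycloChar p s = 1) → rootsDelta p F = 1) := by
  classical
  have hH := fixingSubgroup_mem_LQ F
  obtain ⟨N, hN, hle, hn⟩ := LQ.exists_normal hH
  have := LQ.finiteIndex hH
  let _ : Fintype (GQ ⧸ F.fixingSubgroup) := Fintype.ofFinite _
  let T := cosetTrans LQ F.fixingSubgroup hN hn hle
  have hTH : T.H = F.fixingSubgroup := Subgroup.ext fun g => mem_cosetTrans_H hN hn hle
  let emb' : GQ ⧸ F.fixingSubgroup → (F →+* ℂ) := fun x =>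
    (complexEmbedding.comp (((x.out : GQ) : Qb →ₐ[ℚ] Qb).comp F.val)).toRingHom
  refine ⟨_, inferInstance, inferInstance, T, fun x => InfinitePlace.mk (emb' x), hTH,
    fun a b hab => ?_, fun hμ => ?_⟩
  · have hout : ∀ x : GQ ⧸ F.fixingSubgroup, ((x.out : GQ) : GQ ⧸ F.fixingSubgroup) = x :=
      fun x => QuotientGroup.out_eq' x
    have key : ∀ g g' : GQ, (∀ x ∈ F, g x = g' x) →
        (g : GQ ⧸ F.fixingSubgroup) = (g' : GQ ⧸ F.fixingSubgroup) := fun g g' h =>
      QuotientGroup.eq.2 ((IntermediateField.mem_fixingSubgroup_iff _ _).2 fun x hx => by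
        rw [AlgEquiv.mul_apply, ← h x hx]
        exact g.symm_apply_apply x)
    rcases InfinitePlace.mk_eq_iff.1 hab with h | h
    · refine Or.inl ?_
      rw [← hout a, ← hout b]
      exact key _ _ fun x hx =>
        (complexEmbedding.injective (RingHom.congr_fun h ⟨x, hx⟩)).symm
    · refine Or.inr ?_
      rw [← hout a, ← hout b, MulAction.Quotient.smul_mk, smul_eq_mul]
      refine key _ _ fun x hx => complexEmbedding.injective ?_
      show complexEmbedding _ = complexEmbedding _
      rw [AlgEquiv.mul_apply, complexEmbedding_complexConjugation]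
      exact (RingHom.congr_fun h ⟨x, hx⟩).symm
  · have hmem : zetaQ p ∈ F := by
      rw [← InfiniteGalois.fixedField_fixingSubgroup F, IntermediateField.mem_fixedField_iff]
      intro s hs
      rw [apply_zetaQ, hμ s (hTH.symm ▸ hs), Units.val_one, ZMod.val_one, pow_one]
    refine if_pos ⟨⟨zetaQ p, hmem⟩, ?_⟩
    exact IsPrimitiveRoot.of_map_of_injective (f := F.val) (zetaQ_spec (p := p))
      F.val.injective

/-- **The criterion** for an embedded field. -/
theorem not_unrBounded_field (hp2 : p ≠ 2) (F : IntermediateField ℚ Qb) [FiniteDimensional ℚ F]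
    [NumberField F] {d : ℕ} (hd : 3 ≤ d) {φ : ClassGroup (𝓞 F) →* Multiplicative (Fin d → ZMod p)}
    (hφ : Function.Surjective φ)
    (hcount : 4 * (d + Units.rank F + rootsDelta p F) ≤ d ^ 2) (B : ℕ) :
    ¬ UnrBounded p F.fixingSubgroup B := by
  classical
  obtain ⟨X, _, _, T, pl, hTH, hpl, hδ⟩ := exists_setting (p := p) F
  obtain ⟨L, _, _, _, hL⟩ := exists_isHilbertClassField F
  have := hL.isGalois
  obtain ⟨e⟩ := hL.equiv
  obtain ⟨i, r, hrs, hrlc, hru, -⟩ := exists_class_of_field F L hL.unr.1
  have hex : ∃ f : F.fixingSubgroup →* Multiplicative (Fin d → ZMod p),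
      Function.Surjective f ∧ UnrClass p F.fixingSubgroup f :=
    ⟨(φ.comp e.symm.toMonoidHom).comp r, (hφ.comp e.symm.surjective).comp hrs,
      ⟨hrlc.comp fun σ => φ (e.symm σ), fun s => ⟨1, Multiplicative.toAdd.injective (by
        rw [toAdd_pow, pow_one, toAdd_one]
        exact funext fun j => by
          rw [Pi.smul_apply, nsmul_eq_mul, ZMod.natCast_self, zero_mul]; rfl)⟩,
      fun q g τ hτ => by
        show φ (e.symm (r _)) = 1
        rw [hru q g τ hτ, map_one, map_one]⟩⟩
  rw [← hTH] at hex ⊢
  obtain ⟨f, hfs, hf⟩ := hex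
  refine not_unrBounded T hp2 pl hpl hd hfs hf ?_ B
  have hP : Fintype.card (InfinitePlace F) = Units.rank F + 1 := by
    have : 0 < Fintype.card (InfinitePlace F) := Fintype.card_pos
    rw [Units.rank]
    omega
  rw [hP]
  split_ifs with hμ
  · rw [hδ hμ] at hcount
    omega
  · omega

/-- An embedded copy. -/
theorem exists_embedded (K : Type) [Field K] [NumberField K] :
    ∃ (F : IntermediateField ℚ Qb) (_ : FiniteDimensional ℚ F) (_ : NumberField F),
      Nonempty (K ≃+* F) := by
  let j : K →ₐ[ℚ] Qb := IsAlgClosed.lift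
  have hF : FiniteDimensional ℚ j.fieldRange :=
    (AlgEquiv.ofInjectiveField j).toLinearEquiv.finiteDimensional
  exact ⟨j.fieldRange, hF, { }, ⟨(AlgEquiv.ofInjectiveField j).toRingEquiv⟩⟩

section base

variable {K F L : Type} [Field K] [NumberField K] [Field F] [NumberField F] [Field L]
  [NumberField L] [Algebra K F] [Algebra F L] [Algebra K L] [IsScalarTower K F L]

/-- An isomorphic base. -/
def baseEquiv (h : Function.Bijective (algebraMap K F)) : F ≃ₐ[K] K :=
  (AlgEquiv.ofBijective (Algebra.ofId K F) h).symm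

theorem unrEverywhere_base (h : Function.Bijective (algebraMap K F)) : UnrEverywhere K F :=
  (unrEverywhere_self (K := K)).of_algEquiv (baseEquiv h)

theorem isGalois_base_down (h : Function.Bijective (algebraMap K F)) [IsGalois F L] :
    IsGalois K L :=
  IsGalois.of_equiv_equiv (F := F) (E := L) (f := (baseEquiv h).toRingEquiv)
    (g := RingEquiv.refl L) (RingHom.ext fun z => by
      show algebraMap K L (baseEquiv h z) = algebraMap F L z
      rw [IsScalarTower.algebraMap_apply K F L]
      exact congrArg (algebraMap F L) ((baseEquiv h).symm_apply_apply z))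

theorem isGalois_base_up [IsGalois K L] : IsGalois F L :=
  IsGalois.tower_top_of_isGalois K F L

theorem finrank_base (h : Function.Bijective (algebraMap K F)) :
    Module.finrank K L = Module.finrank F L := by
  rw [← Module.finrank_mul_finrank K F L, (baseEquiv h).toLinearEquiv.finrank_eq,
    Module.finrank_self, one_mul]

end base

/-- **Unramified extensions of unbounded degree**, and class numbers divisible by `p` above. -/
theorem tower_of_criterion (hp2 : p ≠ 2) (K : Type) [Field K] [NumberField K] {d : ℕ} (hd : 3 ≤ d)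
    {φ : ClassGroup (𝓞 K) →* Multiplicative (Fin d → ZMod p)} (hφ : Function.Surjective φ)
    (hcount : 4 * (d + Units.rank K + rootsDelta p K) ≤ d ^ 2) :
    (∀ B : ℕ, ∃ (L : Type) (_ : Field L) (_ : NumberField L) (_ : Algebra K L),
      IsGalois K L ∧ IsPGroup p (L ≃ₐ[K] L) ∧ UnrEverywhere K L ∧ B < Module.finrank K L) ∧
    ∀ (E : Type) [Field E] [NumberField E], (K →+* E) → p ∣ classNumber E := by
  classical
  obtain ⟨F, _, _, ⟨eK⟩⟩ := exists_embedded K
  let ecl : ClassGroup (𝓞 F) ≃* ClassGroup (𝓞 K) :=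
    ClassGroup.mulEquiv (RingOfIntegers.mapRingEquiv eK.symm)
  have hbad := not_unrBounded_field hp2 F hd (φ := φ.comp ecl.toMonoidHom)
    (hφ.comp ecl.surjective) (by rwa [← unitRank_congr eK, ← rootsDelta_congr eK])
  constructor
  · intro B
    have hB := hbad B
    simp only [UnrBounded, not_forall, not_le] at hB
    obtain ⟨G, _, _, f, hfs, hf, hcard⟩ := hB
    obtain ⟨M, _, _, _, hdeg, -, -, hu, -⟩ := exists_field_of_class F hp2 hfs hf
    let _ : Algebra K F := eK.toRingHom.toAlgebra
    have hbij : Function.Bijective (algebraMap K F) := eK.bijective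
    let _ : Algebra K M := ((algebraMap F M).comp (algebraMap K F)).toAlgebra
    have : IsScalarTower K F M := IsScalarTower.of_algebraMap_eq fun _ => rfl
    have hg : IsGalois K M := isGalois_base_down hbij
    obtain ⟨k, hk⟩ := IsPGroup.iff_card.1 (hf.isPGroup hfs)
    refine ⟨M, inferInstance, inferInstance, inferInstance, hg,
      IsPGroup.of_card (n := k) ?_, (unrEverywhere_base hbij).trans hu, ?_⟩
    · rw [IsGalois.card_aut_eq_finrank, finrank_base (F := F) hbij, hdeg, hk]
    · rw [finrank_base (F := F) hbij, hdeg]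
      exact hcard
  · intro E _ _ i
    let _ : Algebra K E := i.toAlgebra
    let _ : Algebra K Qb := (F.val.toRingHom.comp eK.toRingHom).toAlgebra
    have : Algebra.IsAlgebraic K E := by
      have : FiniteDimensional K E := Module.Finite.of_restrictScalars_finite ℚ K E
      infer_instance
    let j : E →ₐ[K] Qb := IsAlgClosed.lift
    let jQ : E →ₐ[ℚ] Qb :=
      { j.toRingHom with
        commutes' := fun r => DFunLike.congr_fun
          (Subsingleton.elim (j.toRingHom.comp (algebraMap ℚ E)) (algebraMap ℚ Qb)) r }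
    have hFE : F ≤ jQ.fieldRange := fun x hx => ⟨i (eK.symm ⟨x, hx⟩), by
      show j (algebraMap K E (eK.symm ⟨x, hx⟩)) = x
      rw [j.commutes]
      show (eK (eK.symm ⟨x, hx⟩) : Qb) = x
      rw [eK.apply_symm_apply]⟩
    have hEf : FiniteDimensional ℚ jQ.fieldRange :=
      (AlgEquiv.ofInjectiveField jQ).toLinearEquiv.finiteDimensional
    have : NumberField jQ.fieldRange := { }
    rw [GolodShafarevich.classNumber_congr (F' := jQ.fieldRange)
      (AlgEquiv.ofInjectiveField jQ).toRingEquiv]
    set H := F.fixingSubgroup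
    set H' := jQ.fieldRange.fixingSubgroup
    have hle : H' ≤ H := IntermediateField.fixingSubgroup_antitone hFE
    have := (LQ.sub H).finiteIndex ⟨H', fixingSubgroup_mem_LQ jQ.fieldRange, rfl⟩
    have hB := hbad (H'.subgroupOf H).index
    simp only [UnrBounded, not_forall, not_le] at hB
    obtain ⟨G, _, _, f, hfs, hf, hcard⟩ := hB
    let f' := (f.comp (Subgroup.inclusion hle)).rangeRestrict
    obtain ⟨M, _, _, _, hdeg, hP, -, hu, -⟩ := exists_field_of_class jQ.fieldRange hp2
      (f := f') (MonoidHom.rangeRestrict_surjective _) (hf.restrict hle).rangeRestrict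
    have hne : Module.finrank jQ.fieldRange M ≠ 1 := by
      rw [hdeg]
      intro h1
      rw [Subgroup.card_eq_one] at h1
      have hsub : H'.subgroupOf H ≤ f.ker := fun s hs => by
        have hmem : f.comp (Subgroup.inclusion hle) ⟨s, Subgroup.mem_subgroupOf.1 hs⟩
            ∈ (f.comp (Subgroup.inclusion hle)).range := ⟨_, rfl⟩
        rw [h1, Subgroup.mem_bot] at hmem
        exact hmem
      have hidx : f.ker.index = Nat.card G := by
        rw [Subgroup.index_ker, MonoidHom.range_eq_top.2 hfs, Subgroup.card_top]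
      have := Nat.le_of_dvd (Nat.pos_of_ne_zero Subgroup.FiniteIndex.index_ne_zero)
        (Subgroup.index_dvd_of_le hsub)
      omega
    obtain ⟨k, hk⟩ := IsPGroup.iff_card.1 hP
    rw [IsGalois.card_aut_eq_finrank] at hk
    have : Group.IsNilpotent (M ≃ₐ[jQ.fieldRange] M) := hP.isNilpotent
    have := hu.2
    obtain ⟨l, hl, hld, hlh⟩ := FA.ClassField94.exists_prime_dvd_classNumber hu.1 hne
    rw [hk] at hld
    exact (Nat.prime_dvd_prime_iff_eq hl hp.out).1 (hl.dvd_of_dvd_pow hld) ▸ hlh

/-- **Shafarevich's bound** for the maximal unramified `p`-extension. -/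
theorem relations_of_maximal (hp2 : p ≠ 2) {K L : Type} [Field K] [NumberField K] [Field L]
    [NumberField L] [Algebra K L] [IsGalois K L] (hG : IsPGroup p (L ≃ₐ[K] L))
    (hu : UnrEverywhere K L)
    (hmax : ∀ (M : Type) [Field M] [NumberField M] [Algebra K M] [IsGalois K M],
      IsPGroup p (M ≃ₐ[K] M) → UnrEverywhere K M → Nonempty (M →ₐ[K] L))
    {ι : Type} [Fintype ι] {x : ι → (L ≃ₐ[K] L)} (hgen : Subgroup.closure (Set.range x) = ⊤)
    (hmin : Group.rank (L ≃ₐ[K] L) = Fintype.card ι) :
    ∃ (n : ℕ) (rel : Fin n → FreeGroup ι),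
      n ≤ Fintype.card ι + Units.rank K + rootsDelta p K ∧
      (∀ j, FreeGroup.lift x (rel j) = 1) ∧
      (FreeGroup.lift x).ker ≤ Subgroup.normalClosure (Set.range rel ∪
        {z | ∃ r ∈ (FreeGroup.lift x).ker, z = r ^ p} ∪
        {z | ∃ r ∈ (FreeGroup.lift x).ker, ∃ f, z = r * f * r⁻¹ * f⁻¹}) := by
  classical
  obtain ⟨F, _, _, ⟨eK⟩⟩ := exists_embedded K
  let _ : Algebra K F := eK.toRingHom.toAlgebra
  have hbij : Function.Bijective (algebraMap K F) := eK.bijective
  let _ : Algebra F L := ((algebraMap K L).comp eK.symm.toRingHom).toAlgebra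
  have : IsScalarTower K F L := IsScalarTower.of_algebraMap_eq fun k => by
    show algebraMap K L k = algebraMap K L (eK.symm (eK k))
    rw [eK.symm_apply_apply]
  have : IsGalois F L := isGalois_base_up (K := K)
  have : FiniteDimensional K L := Module.Finite.of_restrictScalars_finite ℚ K L
  obtain ⟨i, r, hrs, hrlc, hru, hri⟩ := exists_class_of_field F L (hu.top (E := F)).1
  let down : (L ≃ₐ[F] L) →* (L ≃ₐ[K] L) :=
    MonoidHom.mk' (fun s => s.restrictScalars K) fun _ _ => rfl
  have hdown : Function.Surjective down := fun s => by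
    have h : ∀ z : F, s.toRingEquiv (algebraMap F L z) = algebraMap F L z := fun z =>
      s.commutes (eK.symm z)
    exact ⟨AlgEquiv.ofRingEquiv h, AlgEquiv.ext fun _ => rfl⟩
  have hcl : UnrClass p F.fixingSubgroup (down.comp r) :=
    ⟨hrlc.comp down, fun s => hG _, fun q g τ hτ => by
      rw [MonoidHom.comp_apply, hru q g τ hτ, map_one]⟩
  have hfac : ∀ (G' : Type) [Group G'] [Finite G'] (f : F.fixingSubgroup →* G'),
      UnrClass p F.fixingSubgroup f → (down.comp r).ker ≤ f.ker := by
    intro G' _ _ f hf s hs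
    obtain ⟨M, _, _, _, hdeg, hP, -, hMu, hfixM⟩ := exists_field_of_class F hp2
      (MonoidHom.rangeRestrict_surjective f) hf.rangeRestrict
    let _ : Algebra K M := ((algebraMap F M).comp (algebraMap K F)).toAlgebra
    have : IsScalarTower K F M := IsScalarTower.of_algebraMap_eq fun _ => rfl
    have : IsGalois K M := isGalois_base_down hbij
    obtain ⟨k, hk⟩ := IsPGroup.iff_card.1 hP
    have hPK : IsPGroup p (M ≃ₐ[K] M) := IsPGroup.of_card (n := k) (by
      rw [IsGalois.card_aut_eq_finrank, finrank_base (F := F) hbij,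
        ← IsGalois.card_aut_eq_finrank, hk])
    obtain ⟨ψ⟩ := hmax M hPK ((unrEverywhere_base hbij).trans hMu)
    let ψF : M →ₐ[F] L :=
      { ψ.toRingHom with
        commutes' := fun z => by
          obtain ⟨k', rfl⟩ := hbij.2 z
          show ψ (algebraMap F M (algebraMap K F k')) = _
          rw [← IsScalarTower.algebraMap_apply, ψ.commutes, ← IsScalarTower.algebraMap_apply] }
    have hrs1 : r s = 1 := AlgEquiv.ext fun y =>
      (AlgEquiv.congr_fun (MonoidHom.mem_ker.1 hs) y :)
    have hrange : (i.comp ψF).fieldRange = M :=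
      @AlgHom.fieldRange_of_normal F Qb _ _ _ M IsGalois.to_normal _
    refine MonoidHom.mem_ker.2 (congrArg Subtype.val (hfixM s fun y hy => ?_))
    rw [← hrange] at hy
    obtain ⟨m, rfl⟩ := hy
    show (s : GQ) (i (ψF m)) = i (ψF m)
    rw [← hri, hrs1]
    rfl
  obtain ⟨X, _, _, T, pl, hTH, hpl, hδ⟩ := exists_setting (p := p) F
  have hex : ∃ ρ : F.fixingSubgroup →* (L ≃ₐ[K] L), Function.Surjective ρ ∧
      UnrClass p F.fixingSubgroup ρ ∧ ∀ (G' : Type) [Group G'] [Finite G']
        (f : F.fixingSubgroup →* G'), UnrClass p F.fixingSubgroup f → ρ.ker ≤ f.ker :=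
    ⟨down.comp r, hdown.comp hrs, hcl, hfac⟩
  rw [← hTH] at hex
  obtain ⟨ρ, hρs, hρc, hρm⟩ := hex
  obtain ⟨n, rel, hn, hrel, hdef⟩ := exists_relations T hp2 hρs hρc hρm pl hpl hgen hmin
  refine ⟨n, rel, ?_, hrel, hdef⟩
  have hP : Fintype.card (InfinitePlace F) = Units.rank F + 1 := by
    have : 0 < Fintype.card (InfinitePlace F) := Fintype.card_pos
    rw [Units.rank]
    omega
  rw [hP, ← unitRank_congr eK] at hn
  rw [rootsDelta_congr eK]
  split_ifs at hn with hμ
  · rw [hδ hμ]
    omega
  · omega

end Fermat.Agent.GolodCriterion
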