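import Fermat.Agent.GolodCriterion.Cokernel
import Fermat.Agent.GolodCriterion.Elementary

/-!
# Shafarevich's bound on the relations

A functional on the relations of the group of the maximal unramified `p`-extension gives local
classes modulo the unramified ones; were they global the central extension would lift unramified,
hence split, against the minimality of the generators. So the relations are at most the cokernel.
-/

set_option autoImplicit false
set_option linter.unusedSectionVars false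

noncomputable section

namespace Fermat.Agent.GolodCriterion

open FA.GalCoh ScholzReichardt Fermat.Agent.GolodShafarevich

variable {p : ℕ} [hp : Fact p.Prime]

section Kernel

variable {F : Type} [Group F] {R Kc : Subgroup F} [Kc.Normal] {n : ℕ}
  (χ : R →* Multiplicative (Fin n → ZMod p))

open Classical in
/-- The coordinates on the image of the relations in a quotient. -/
def coordQ (z : F ⧸ Kc) : Fin n → ZMod p :=
  if h : ∃ r : R, ((r : F) : F ⧸ Kc) = z then Multiplicative.toAdd (χ h.choose) else 0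

theorem coordQ_mk (hχ : ∀ r : R, χ r = 1 ↔ (r : F) ∈ Kc) (r : R) :
    coordQ χ ((r : F) : F ⧸ Kc) = Multiplicative.toAdd (χ r) := by
  have h : ∃ r' : R, ((r' : F) : F ⧸ Kc) = ((r : F) : F ⧸ Kc) := ⟨r, rfl⟩
  rw [coordQ, dif_pos h]
  refine congrArg Multiplicative.toAdd (inv_mul_eq_one.1 ?_)
  rw [← map_inv, ← map_mul, hχ]
  exact QuotientGroup.eq.1 h.choose_spec

theorem coordQ_mul (hχ : ∀ r : R, χ r = 1 ↔ (r : F) ∈ Kc) (r r' : R) :
    coordQ χ (((r : F) : F ⧸ Kc) * ((r' : F) : F ⧸ Kc))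
      = coordQ χ ((r : F) : F ⧸ Kc) + coordQ χ ((r' : F) : F ⧸ Kc) := by
  rw [← QuotientGroup.mk_mul, ← Subgroup.coe_mul, coordQ_mk χ hχ, coordQ_mk χ hχ,
    coordQ_mk χ hχ, map_mul, toAdd_mul]

end Kernel

variable {X : Type} [Fintype X] [MulAction GQ X] (T : Trans LQ X)

/-- The difference of a global and a local lift, as a character of the local subgroup. -/
theorem exists_diff_char {F G : Type} [Group F] [Group G] {π : F →* G} {Kc : Subgroup F}
    [Kc.Normal] (hKc : Kc ≤ π.ker) (hcomm : ∀ r ∈ π.ker, ∀ f, r * f * r⁻¹ * f⁻¹ ∈ Kc) {n : ℕ}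
    {χ : π.ker →* Multiplicative (Fin n → ZMod p)} (hχ : ∀ r : π.ker, χ r = 1 ↔ (r : F) ∈ Kc)
    {q : ℕ} [Fact q.Prime] {D : Subgroup (LG q)} {Φ β : D →* F ⧸ Kc}
    (hΦlc : LC₁ ((LL q).sub D) Φ) (hβlc : LC₁ ((LL q).sub D) β)
    (heq : ∀ τ, QuotientGroup.lift Kc π hKc (Φ τ) = QuotientGroup.lift Kc π hKc (β τ)) :
    ∃ c : Fin n → ↥(Z1 ((LL q).sub D) (triv D p)),
      ∀ τ : D, ∃ r : π.ker, Φ τ = β τ * ((r : F) : F ⧸ Kc) ∧
        ∀ i, (c i).1 τ = Multiplicative.toAdd (χ r) i := by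
  have hmem : ∀ τ, ∃ r : π.ker, ((r : F) : F ⧸ Kc) = (β τ)⁻¹ * Φ τ := fun τ => by
    obtain ⟨f, hf⟩ := QuotientGroup.mk_surjective ((β τ)⁻¹ * Φ τ)
    refine ⟨⟨f, ?_⟩, hf⟩
    have h : QuotientGroup.lift Kc π hKc ((β τ)⁻¹ * Φ τ) = 1 := by
      rw [map_mul, map_inv, heq, inv_mul_cancel]
    rwa [← hf] at h
  choose r hr using hmem
  have hcentral : ∀ (r : π.ker) (z : F ⧸ Kc),
      ((r : F) : F ⧸ Kc) * z = z * ((r : F) : F ⧸ Kc) := fun r z => by
    obtain ⟨f, rfl⟩ := QuotientGroup.mk_surjective z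
    rw [← QuotientGroup.mk_mul, ← QuotientGroup.mk_mul, QuotientGroup.eq]
    convert inv_mem (hcomm _ (inv_mem r.2) f⁻¹) using 1
    group
  have hmul : ∀ a b, ((r (a * b) : F) : F ⧸ Kc) = ((r a : F) : F ⧸ Kc) * ((r b : F) : F ⧸ Kc) :=
    fun a b => by
      rw [hr, map_mul, map_mul, mul_inv_rev]
      calc (β b)⁻¹ * (β a)⁻¹ * (Φ a * Φ b) = (β b)⁻¹ * ((r a : F) : F ⧸ Kc) * Φ b := by
            rw [hr]; group
        _ = ((r a : F) : F ⧸ Kc) * ((β b)⁻¹ * Φ b) := by rw [← hcentral, mul_assoc]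
        _ = _ := by rw [hr b]
  have hadd : ∀ i a b, coordQ χ ((r (a * b) : F) : F ⧸ Kc) i
      = coordQ χ ((r a : F) : F ⧸ Kc) i + coordQ χ ((r b : F) : F ⧸ Kc) i := fun i a b => by
    rw [hmul, coordQ_mul χ hχ]
    rfl
  have hlc : LC₁ ((LL q).sub D) fun τ => ((r τ : F) : F ⧸ Kc) := by
    simpa only [hr] using hβlc.map₂ hΦlc fun u v => u⁻¹ * v
  refine ⟨fun i => ⟨fun τ => coordQ χ ((r τ : F) : F ⧸ Kc) i,
    mem_Z1_triv (hlc.comp fun z => coordQ χ z i) (hadd i)⟩,
    fun τ => ⟨r τ, by rw [hr, mul_inv_cancel_left], fun i => ?_⟩⟩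
  show coordQ χ ((r τ : F) : F ⧸ Kc) i = _
  rw [coordQ_mk χ hχ]

/-- A central extension of the largest member with an unramified lift splits, so it needs one
generator more. -/
theorem not_unrClass_lift {G : Type} [Group G] [Finite G] {ρ : T.H →* G}
    (hρ : Function.Surjective ρ) (hG : IsPGroup p G)
    (hmax : ∀ (G' : Type) [Group G'] [Finite G'] (f : T.H →* G'),
      UnrClass p T.H f → ρ.ker ≤ f.ker)
    {ι : Type} [Fintype ι] {x : ι → G} (hgen : Subgroup.closure (Set.range x) = ⊤)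
    (hmin : Group.rank G = Fintype.card ι) {K' : Subgroup (FreeGroup ι)} [K'.Normal]
    (D : CExt p (FreeGroup ι ⧸ K') G) {ψ : T.H →* FreeGroup ι ⧸ K'}
    (hψ : UnrClass p T.H ψ) (hlift : ∀ s, D.π (ψ s) = ρ s) : False := by
  classical
  let E := FreeGroup ι ⧸ K'
  have : Finite E := cExt_finite D
  let sec : G →* E := ρ.liftOfSurjective hρ ⟨ψ, hmax _ ψ hψ⟩
  have hs : ∀ g, D.π (sec g) = g := fun g => by
    obtain ⟨y, rfl⟩ := hρ g
    rw [show sec (ρ y) = ψ y from MonoidHom.liftOfRightInverse_comp_apply _ _ _ _ y, hlift]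
  choose r hr using fun e : E => D.exists_ja (e := (sec (D.π e))⁻¹ * e)
    (by rw [map_mul, map_inv, hs, inv_mul_cancel])
  have hradd : ∀ a b, r (a * b) = r a + r b := fun a b => D.ja_injective (by
    rw [D.ja_add, hr, map_mul, map_mul, mul_inv_rev]
    calc (sec (D.π b))⁻¹ * (sec (D.π a))⁻¹ * (a * b)
        = (sec (D.π b))⁻¹ * ((sec (D.π a))⁻¹ * a) * b := by group
      _ = (sec (D.π a))⁻¹ * a * ((sec (D.π b))⁻¹ * b) := by
        rw [← hr a, ← D.ja_comm, mul_assoc]
      _ = _ := by rw [hr a, hr b])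
  obtain ⟨χ, hχadd, hχg⟩ := exists_dual_chars x hG hgen hmin
  let Θ : E →* Multiplicative (Option ι → ZMod p) :=
    MonoidHom.mk' (fun e => Multiplicative.ofAdd fun o => o.elim (r e) fun i => χ i (D.π e))
      fun a b => congrArg Multiplicative.ofAdd (funext fun o => by
        rcases o with _ | i
        · exact hradd a b
        · show χ i (D.π (a * b)) = _
          rw [map_mul, hχadd]
          rfl)
  have hΘ : Function.Surjective Θ := fun v => by
    let w : ι → ZMod p := fun i => Multiplicative.toAdd v (some i)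
    obtain ⟨g, hg⟩ : ∃ g : G, ∀ i, χ i g = w i := by
      let χh : G →* Multiplicative (ι → ZMod p) :=
        MonoidHom.mk' (fun g => Multiplicative.ofAdd fun i => χ i g)
          fun a b => congrArg Multiplicative.ofAdd (funext fun i => hχadd i a b)
      have hmem : (∏ i, Multiplicative.ofAdd (Pi.single i (w i) : ι → ZMod p)) ∈ χh.range :=
        Subgroup.prod_mem _ fun i _ => ⟨x i ^ (w i).val, by
          rw [map_pow]
          refine Multiplicative.toAdd.injective (funext fun j => ?_)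
          rw [toAdd_pow, toAdd_ofAdd, Pi.smul_apply]
          show (w i).val • χ j (x i) = _
          rw [hχg]
          rcases eq_or_ne i j with rfl | hij
          · rw [Pi.single_eq_same, Pi.single_eq_same, nsmul_one, ZMod.natCast_zmod_val]
          · rw [Pi.single_eq_of_ne hij, Pi.single_eq_of_ne hij.symm, smul_zero]⟩
      obtain ⟨g, hg⟩ := MonoidHom.mem_range.1 hmem
      refine ⟨g, fun i => ?_⟩
      have h := congrFun (congrArg Multiplicative.toAdd hg) i
      rw [toAdd_prod] at h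
      simpa [χh, Finset.univ_sum_single] using h
    have hπg : D.π (sec g * D.ja (Multiplicative.toAdd v none)) = g := by
      rw [map_mul, D.π_ja, mul_one, hs]
    refine ⟨sec g * D.ja (Multiplicative.toAdd v none),
      Multiplicative.toAdd.injective (funext fun o => ?_)⟩
    rcases o with _ | i
    · refine D.ja_injective ?_
      show D.ja (r _) = _
      rw [hr, hπg, inv_mul_cancel_left]
    · show χ i (D.π _) = _
      rw [hπg, hg]
  let Y : ι → E := fun i => (FreeGroup.of i : FreeGroup ι)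
  have hY : Subgroup.closure (Set.range Y) = ⊤ := by
    rw [show Y = (QuotientGroup.mk' K') ∘ FreeGroup.of from rfl, Set.range_comp,
      ← MonoidHom.map_closure, FreeGroup.closure_range_of,
      Subgroup.map_top_of_surjective _ (QuotientGroup.mk'_surjective K')]
  have h1 : Group.rank E ≤ Fintype.card ι := by
    refine (Group.rank_le (S := Finset.univ.image Y) ?_).trans Finset.card_image_le
    rwa [Finset.coe_image, Finset.coe_univ, Set.image_univ]
  have h2 := (card_le_rank Θ hΘ).trans h1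
  rw [Fintype.card_option] at h2
  omega

/-- **Shafarevich's bound**: the group of the maximal unramified `p`-extension has at most
`d + r₁ + r₂ - 1 + δ` relations modulo `p`-th powers and commutators. -/
theorem exists_relations (hp2 : p ≠ 2) {G : Type} [Group G] [Finite G] {ρ : T.H →* G}
    (hρ : Function.Surjective ρ) (hc : UnrClass p T.H ρ)
    (hmax : ∀ (G' : Type) [Group G'] [Finite G'] (f : T.H →* G'),
      UnrClass p T.H f → ρ.ker ≤ f.ker)
    {P : Type} [Fintype P] (pl : X → P)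
    (hpl : ∀ a b, pl a = pl b → b = a ∨ b = complexConjugation • a)
    [Decidable (∀ s ∈ T.H, ExtCitation.cycloChar p s = 1)]
    {ι : Type} [Fintype ι] {x : ι → G} (hgen : Subgroup.closure (Set.range x) = ⊤)
    (hmin : Group.rank G = Fintype.card ι) :
    ∃ (n : ℕ) (rel : Fin n → FreeGroup ι),
      n + 1 ≤ Fintype.card ι + (if ∀ s ∈ T.H, ExtCitation.cycloChar p s = 1 then 1 else 0)
          + Fintype.card P ∧
      (∀ j, FreeGroup.lift x (rel j) = 1) ∧
      (FreeGroup.lift x).ker ≤ Subgroup.normalClosure (Set.range rel ∪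
        {z | ∃ r ∈ (FreeGroup.lift x).ker, z = r ^ p} ∪
        {z | ∃ r ∈ (FreeGroup.lift x).ker, ∃ f, z = r * f * r⁻¹ * f⁻¹}) := by
  classical
  have hG : IsPGroup p G := hc.isPGroup hρ
  set π := FreeGroup.lift x with hπdef
  have hπ : Function.Surjective π := by
    rw [← MonoidHom.range_eq_top, eq_top_iff, ← hgen, Subgroup.closure_le]
    rintro _ ⟨i, rfl⟩
    exact ⟨FreeGroup.of i, FreeGroup.lift_apply_of⟩
  set Kc := Subgroup.normalClosure ({z | ∃ r ∈ π.ker, z = r ^ p} ∪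
    {z | ∃ r ∈ π.ker, ∃ f, z = r * f * r⁻¹ * f⁻¹}) with hKcdef
  have hKc : Kc ≤ π.ker := Subgroup.normalClosure_le_normal (by
    rintro z (⟨r', hr', rfl⟩ | ⟨r', hr', f, rfl⟩)
    · exact pow_mem hr' p
    · show π (r' * f * r'⁻¹ * f⁻¹) = 1
      rw [map_mul, map_mul, map_mul, map_inv, map_inv, show π r' = 1 from hr', inv_one, one_mul,
        mul_one, mul_inv_cancel])
  have hpow : ∀ r ∈ π.ker, r ^ p ∈ Kc := fun r hr =>
    Subgroup.subset_normalClosure (Or.inl ⟨r, hr, rfl⟩)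
  have hcomm : ∀ r ∈ π.ker, ∀ f, r * f * r⁻¹ * f⁻¹ ∈ Kc := fun r hr f =>
    Subgroup.subset_normalClosure (Or.inr ⟨r, hr, f, rfl⟩)
  obtain ⟨n, χ, hχs, hχ⟩ := exists_coords_ker (p := p) π Kc hpow hcomm
  obtain ⟨hfinQ, Φ, hΦlc, hΦl⟩ :=
    exists_lift_elementary hp2 T.mem_LQ hπ Kc hKc hcomm hχs hχ hc
  -- the primes
  obtain ⟨S₁, hS₁⟩ := exists_finset_unr T.mem_LQ Φ hΦlc
  obtain ⟨S₂, hS₂⟩ := exists_finset_unrRep (p := p) T
  set S : Finset Nat.Primes := insert ⟨p, hp.out⟩ (S₁ ∪ S₂) with hSdef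
  have hpS : (⟨p, hp.out⟩ : Nat.Primes) ∈ S := Finset.mem_insert_self _ _
  have hSunr : ∀ q : Nat.Primes, q ∉ S → UnrRep ((T.perm p).comp (loc (q : ℕ))) := fun q hq =>
    hS₂ q fun h => hq (Finset.mem_insert_of_mem (Finset.mem_union_right _ h))
  -- the local differences
  have hloc' : ∀ (q : {q : Nat.Primes // q ∈ S}) (v : PlaceOver T.H (q.1 : ℕ)),
      ∃ c : Fin n → ↥(Z1 ((LL (q.1 : ℕ)).sub (hloc T.H (q.1 : ℕ) (repQ v)))
          (triv (hloc T.H (q.1 : ℕ) (repQ v)) p)),
        ∀ τ : hloc T.H (q.1 : ℕ) (repQ v), (τ : LG (q.1 : ℕ)) ∈ inertL (q.1 : ℕ) →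
          ∃ r : π.ker, Φ (locTo T.H (q.1 : ℕ) (repQ v) τ) = ((r : FreeGroup ι) : _ ⧸ Kc) ∧
            ∀ i, (c i).1 τ = Multiplicative.toAdd (χ r) i := by
    intro q v
    let πQ := QuotientGroup.lift Kc π hKc
    obtain ⟨τ₀, h⟩ := exists_unr_local_lift (hloc_mem (q := (q.1 : ℕ)) T.mem_LQ (repQ v)) πQ
      (ρ.comp (locTo T.H (q.1 : ℕ) (repQ v))) (hc.lc.precomp (compat_locTo _))
      (hc.unr q.1 (repQ v))
    obtain ⟨β, hβlc, hβ, hβl, -⟩ := h (Φ (locTo T.H (q.1 : ℕ) (repQ v) τ₀)) (hΦl _)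
    obtain ⟨c, hcc⟩ := exists_diff_char (p := p) hKc hcomm hχ
      (Φ := Φ.comp (locTo T.H (q.1 : ℕ) (repQ v))) (hΦlc.precomp (compat_locTo _)) hβlc
      fun τ => (hΦl _).trans (hβl τ).symm
    refine ⟨c, fun τ hτ => ?_⟩
    obtain ⟨r, hr1, hr2⟩ := hcc τ
    rw [hβ τ hτ, one_mul] at hr1
    exact ⟨r, hr1, hr2⟩
  choose c hc' using hloc'
  have hfinP : ∀ q : {q : Nat.Primes // q ∈ S}, Finite (PlaceOver T.H (q.1 : ℕ)) := fun q => by
    have := LQ.finiteIndex T.mem_LQ
    infer_instance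
  let _ : ∀ q : {q : Nat.Primes // q ∈ S}, Fintype (PlaceOver T.H (q.1 : ℕ)) :=
    fun q => Fintype.ofFinite _
  let y : Fin n → UnrQuot p T S := fun i q =>
    (unrCond p T (q.1 : ℕ)).mkQ (∑ v, shSection T (q.1 : ℕ) (repQ v) (c q v i))
  let Λ : (Fin n → ZMod p) →ₗ[ZMod p] UnrQuot p T S ⧸ LinearMap.range (toQuot p T S) :=
    (LinearMap.range (toQuot p T S)).mkQ ∘ₗ ∑ i, (LinearMap.proj i).smulRight (y i)
  have hΛ : Function.Injective Λ := LinearMap.ker_eq_bot.1 <| LinearMap.ker_eq_bot'.2 fun a ha => by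
    by_contra ha0
    have hΛa : Λ a = (LinearMap.range (toQuot p T S)).mkQ (∑ i, a i • y i) := by
      simp [Λ]
    rw [hΛa] at ha
    obtain ⟨x₀, hx₀⟩ := (Submodule.Quotient.mk_eq_zero _).1 ha
    set h := homOf p T x₀.1 with hhdef
    have hunrS : ∀ (q : Nat.Primes), q ∉ S → ∀ (g : GQ) (τ : hloc T.H (q : ℕ) g),
        (τ : LG (q : ℕ)) ∈ inertL (q : ℕ) → h.1 (locTo T.H (q : ℕ) g τ) = 0 := fun q hq =>
      (resq1_mem_unrCond_iff T x₀.1).1
        (unrH1_le_unrCond T (q : ℕ) (mem_unrOutside.1 (mem_selS.1 x₀.2).1 q hq))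
    have hval : ∀ (q : {q : Nat.Primes // q ∈ S}) (v : PlaceOver T.H (q.1 : ℕ))
        (τ : hloc T.H (q.1 : ℕ) (repQ v)), (τ : LG (q.1 : ℕ)) ∈ inertL (q.1 : ℕ) →
        h.1 (locTo T.H (q.1 : ℕ) (repQ v) τ) = ∑ i, a i * (c q v i).1 τ := fun q v τ hτ => by
      have hq := congrFun hx₀ q
      rw [toQuot_apply, Finset.sum_apply] at hq
      simp only [Pi.smul_apply, y] at hq
      simp only [← map_smul, ← map_sum] at hq
      have hmem := (Submodule.Quotient.eq _).1 hq
      have hsh : T.locSh (q.1 : ℕ) (repQ v)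
          (∑ i, a i • ∑ w, shSection T (q.1 : ℕ) (repQ w) (c q w i))
          = mk1 ((LL (q.1 : ℕ)).sub (hloc T.H (q.1 : ℕ) (repQ v)))
              (triv (hloc T.H (q.1 : ℕ) (repQ v)) p) (∑ i, a i • c q v i) := by
        rw [map_sum, map_sum]
        refine Finset.sum_congr rfl fun i _ => ?_
        rw [map_smul, map_smul, map_sum, Finset.sum_eq_single v (fun w _ hw =>
          locSh_shSection_ne (q := (q.1 : ℕ)) T (fun e => hw (by
            rwa [placeQ_repQ, placeQ_repQ, eq_comm] at e)) _)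
          (fun h => absurd (Finset.mem_univ v) h), locSh_shSection_self]
      have h1 := (mem_unrCond T).1 hmem (repQ v)
      rw [map_sub, hsh, locSh_resq1, ← map_sub, mk1_mem_unrSub] at h1
      have h2 := h1 τ hτ
      rw [Submodule.coe_sub, Pi.sub_apply, sub_eq_zero] at h2
      refine h2.trans ?_
      rw [AddSubmonoidClass.coe_finsetSum, Finset.sum_apply]
      rfl
    -- the functional
    let χa : π.ker →* Multiplicative (ZMod p) :=
      MonoidHom.mk' (fun r => Multiplicative.ofAdd (∑ i, a i * Multiplicative.toAdd (χ r) i))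
        fun r r' => by
          rw [← ofAdd_add, ← Finset.sum_add_distrib, map_mul, toAdd_mul]
          simp only [Pi.add_apply, mul_add]
    have hχaK : ∀ r : π.ker, (r : FreeGroup ι) ∈ Kc → χa r = 1 := fun r hr => by
      show Multiplicative.ofAdd _ = 1
      rw [(hχ r).2 hr, toAdd_one]
      simp
    obtain ⟨i₀, hi₀⟩ : ∃ i, a i ≠ 0 := Function.ne_iff.1 ha0
    obtain ⟨z, hz⟩ := hχs (Multiplicative.ofAdd (Pi.single i₀ (a i₀)⁻¹))
    have hza : χa z = Multiplicative.ofAdd 1 := by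
      show Multiplicative.ofAdd _ = _
      rw [hz, toAdd_ofAdd, Finset.sum_eq_single i₀ (fun j _ hj => by
        rw [Pi.single_eq_of_ne hj, mul_zero]) (fun h => absurd (Finset.mem_univ _) h),
        Pi.single_eq_same, mul_inv_cancel₀ hi₀]
    have hz1 : χa z ≠ 1 := fun h1 => one_ne_zero (α := ZMod p)
      (Multiplicative.ofAdd.injective ((hza.symm.trans h1).trans ofAdd_zero.symm))
    obtain ⟨K', hK', D, -, hKcK', hK'mem, hDπ⟩ := exists_cExt_of_functional hπ hKc hcomm χa hχaK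
      (r₀ := z) hz1
    let E := FreeGroup ι ⧸ K'
    have : Finite E := cExt_finite D
    obtain ⟨a₀, ha₀⟩ := D.exists_ja (e := ((z : FreeGroup ι) : E))
      ((hDπ z).trans z.2)
    have hja : ∀ r : π.ker,
        ((r : FreeGroup ι) : E) = D.ja (Multiplicative.toAdd (χa r) * a₀) := fun r => by
      set v := (Multiplicative.toAdd (χa r)).val with hv
      have h1 : (((z ^ v)⁻¹ * r : π.ker) : FreeGroup ι) ∈ K' := (hK'mem _).2 (by
        rw [map_mul, map_inv, map_pow, hza, ← ofAdd_nsmul, nsmul_one, hv, ZMod.natCast_zmod_val,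
          ofAdd_toAdd, inv_mul_cancel])
      rw [Subgroup.coe_mul, Subgroup.coe_inv, ← QuotientGroup.eq, SubmonoidClass.coe_pow,
        QuotientGroup.mk_pow, ← ha₀, ScholzReichardt.CExt.ja_pow, hv, ZMod.natCast_zmod_val] at h1
      exact h1.symm
    let qm : FreeGroup ι ⧸ Kc →* E := QuotientGroup.map Kc K' (MonoidHom.id _) hKcK'
    have hqπ : ∀ u, D.π (qm u) = QuotientGroup.lift Kc π hKc u := fun u => by
      obtain ⟨f, rfl⟩ := QuotientGroup.mk_surjective u
      exact hDπ f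
    let η : T.H → ZMod p := fun s => -(h.1 s * a₀)
    have hη : ∀ u w, η (u * w) = η u + η w := fun u w => by
      simp only [η]
      rw [Z1_triv_mul, add_mul, neg_add]
    let ψ : T.H →* E := D.twist (qm.comp Φ) η hη
    have hlift : ∀ s, D.π (ψ s) = ρ s := fun s => by
      show D.π (D.twist (qm.comp Φ) η hη s) = _
      rw [D.π_twist, MonoidHom.comp_apply, hqπ, hΦl]
    refine not_unrClass_lift T hρ hG hmax hgen hmin D (ψ := ψ) ⟨D.twist_lc
      (hΦlc.comp qm) hη (h.2.1.comp fun t => -(t * a₀)),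
      fun s => cExt_isPGroup D hG _, fun q g τ hτ => ?_⟩ hlift
    by_cases hq : q ∈ S
    · refine unr_of_rep (f := ψ) (fun v τ hτ => ?_) g τ hτ
      obtain ⟨r, hr1, hr2⟩ := hc' ⟨q, hq⟩ v τ hτ
      show qm (Φ _) * D.ja (η _) = 1
      rw [hr1, show qm ((r : FreeGroup ι) : _ ⧸ Kc) = ((r : FreeGroup ι) : E) from rfl, hja,
        ← D.ja_add]
      have e : h.1 (locTo T.H (q : ℕ) (repQ v) τ) = Multiplicative.toAdd (χa r) :=
        (hval ⟨q, hq⟩ v τ hτ).trans (Finset.sum_congr rfl fun i _ => by rw [hr2 i])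
      simp only [η]
      rw [e, add_neg_cancel, D.ja_zero]
    · show qm (Φ _) * D.ja (η _) = 1
      rw [hS₁ q (fun h' => hq (Finset.mem_insert_of_mem (Finset.mem_union_left _ h'))) g τ hτ,
        map_one, one_mul]
      simp only [η]
      rw [hunrS q hq g τ hτ, zero_mul, neg_zero, D.ja_zero]
  -- counting
  have := finiteDimensional_local (p := p) (T := T)
  have hfq : ∀ q : {q : Nat.Primes // q ∈ S}, Module.Finite (ZMod p) (UnrQuotAt p T (q.1 : ℕ)) :=
    fun q => Module.Finite.of_surjective (unrCond p T (q.1 : ℕ)).mkQ (Submodule.mkQ_surjective _)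
  have : Module.Finite (ZMod p) (UnrQuot p T S) := Module.Finite.pi
  have hn : n ≤ Module.finrank (ZMod p) (UnrQuot p T S ⧸ LinearMap.range (toQuot p T S)) := by
    refine le_of_eq_of_le ?_ (LinearMap.finrank_le_finrank_of_injective hΛ)
    rw [Module.finrank_fintype_fun_eq_card, Fintype.card_fin]
  have hcok := finrank_coker_add_one_le (p := p) T hp2 hpS hSunr
  choose σ hσ using fun i => hρ (x i)
  have hsel : Module.finrank (ZMod p) (selS S (T.perm p) (unrConds p T S)) ≤ Fintype.card ι :=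
    finrank_selS_unr_le T (ρ := ρ) (σ := σ) (by
      rw [show (fun i => ρ (σ i)) = x from funext hσ]
      exact hgen) fun h hh => hmax _ h hh
  have hdual := finrank_invariants_dual_le (p := p) T
  have hconj := finrank_ker_conj_le (p := p) T pl hpl
  choose rel hrel using fun i : Fin n => hχs (Multiplicative.ofAdd (Pi.single i 1))
  refine ⟨n, fun i => (rel i : FreeGroup ι), by omega, fun i => (rel i).2, fun c₀ hc₀ => ?_⟩
  set M := Subgroup.normalClosure (Set.range (fun i => (rel i : FreeGroup ι)) ∪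
    {z | ∃ r ∈ π.ker, z = r ^ p} ∪ {z | ∃ r ∈ π.ker, ∃ f, z = r * f * r⁻¹ * f⁻¹}) with hM
  have hKcM : Kc ≤ M := Subgroup.normalClosure_mono (by
    rw [Set.union_assoc]
    exact Set.subset_union_right)
  have hgenM : ∀ v : Fin n → ZMod p, Multiplicative.ofAdd v ∈ (M.subgroupOf π.ker).map χ := by
    intro v
    rw [← Finset.univ_sum_single v, ofAdd_sum]
    refine Subgroup.prod_mem _ fun i _ => Subgroup.mem_map.2 ⟨rel i ^ (v i).val, ?_, ?_⟩
    · have hr : ((rel i : π.ker) : FreeGroup ι) ∈ M :=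
        Subgroup.subset_normalClosure (Or.inl (Or.inl ⟨i, rfl⟩))
      exact pow_mem (show rel i ∈ M.subgroupOf π.ker from Subgroup.mem_subgroupOf.2 hr) _
    · rw [map_pow, hrel, ← ofAdd_nsmul]
      refine congrArg Multiplicative.ofAdd ?_
      rw [← Pi.single_smul', nsmul_one, ZMod.natCast_zmod_val]
  obtain ⟨m, hm, hme⟩ := hgenM (Multiplicative.toAdd (χ ⟨c₀, hc₀⟩))
  rw [ofAdd_toAdd] at hme
  have hk : ((m⁻¹ * ⟨c₀, hc₀⟩ : π.ker) : FreeGroup ι) ∈ M :=
    hKcM ((hχ _).1 (by rw [map_mul, map_inv, hme, inv_mul_cancel]))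
  have hmm := mul_mem (Subgroup.mem_subgroupOf.1 hm) hk
  simpa using hmm

end Fermat.Agent.GolodCriterion
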